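/-
The Farey tessellation: cusps, the triangle rotation, connectedness and integration of edge
functions (an elementary proof that the Farey complex is simply connected).
-/
import Mathlib.NumberTheory.Modular
import Mathlib.Topology.Compactification.OnePoint.ProjectiveLine
import Mathlib.LinearAlgebra.Matrix.FixedDetMatrices

set_option autoImplicit false

namespace Fermat.Agent.Duality

open scoped MatrixGroups
open Matrix ModularGroup

/-- The image of an element of `SL(2, ℤ)` in `GL(2, ℚ)`. -/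
def toGL : SL(2, ℤ) →* GL (Fin 2) ℚ := Matrix.SpecialLinearGroup.mapGL ℚ

@[simp] theorem toGL_apply (g : SL(2, ℤ)) (i j : Fin 2) :
    toGL g i j = ((g i j : ℤ) : ℚ) := by
  simp [toGL]

/-- The cusp `g ∞`. -/
def cuspAt (g : SL(2, ℤ)) : OnePoint ℚ := toGL g • (OnePoint.infty : OnePoint ℚ)

theorem cuspAt_eq_ite (g : SL(2, ℤ)) :
    cuspAt g = if g 1 0 = 0 then OnePoint.infty else (((g 0 0 : ℚ) / (g 1 0 : ℚ) : ℚ) : OnePoint ℚ) := by
  rw [cuspAt, OnePoint.smul_infty_eq_ite]
  simp

theorem toGL_smul_cuspAt (γ g : SL(2, ℤ)) : toGL γ • cuspAt g = cuspAt (γ * g) := by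
  rw [cuspAt, cuspAt, map_mul, mul_smul]

/-- The rotation `∞ → 0 → 1 → ∞` of the standard Farey triangle. -/
def rot : SL(2, ℤ) := ⟨!![0, 1; -1, 1], by simp [Matrix.det_fin_two_of]⟩

theorem coe_rot : (rot : Matrix (Fin 2) (Fin 2) ℤ) = !![0, 1; -1, 1] := rfl

theorem rot_pow_three : rot * rot * rot = -1 := by decide

theorem rot_mul_rot_mul_S : rot * rot * S = T := by decide

theorem rot_eq : rot = -(S * T⁻¹) := by decide

theorem rot_sq_eq : rot * rot = -(T * S) := by decide

theorem rot_mul_S : rot * S = T * S * T := by decide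

theorem cuspAt_mul_of_upper (g u : SL(2, ℤ)) (h : u 1 0 = 0) : cuspAt (g * u) = cuspAt g := by
  rw [cuspAt, cuspAt, map_mul, mul_smul]
  congr 1
  rw [OnePoint.smul_infty_eq_self_iff]
  simp [h]

theorem cuspAt_mul_T (g : SL(2, ℤ)) : cuspAt (g * T) = cuspAt g :=
  cuspAt_mul_of_upper g T (by simp [coe_T])

theorem cuspAt_mul_T_inv (g : SL(2, ℤ)) : cuspAt (g * T⁻¹) = cuspAt g :=
  cuspAt_mul_of_upper g T⁻¹ (by simp)

theorem cuspAt_neg (g : SL(2, ℤ)) : cuspAt (-g) = cuspAt g := by
  simp [cuspAt_eq_ite, neg_div_neg_eq]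

theorem cuspAt_mul_rot (g : SL(2, ℤ)) : cuspAt (g * rot) = cuspAt (g * S) := by
  rw [rot_eq, mul_neg, cuspAt_neg, ← mul_assoc, cuspAt_mul_T_inv]

theorem cuspAt_mul_rot_rot (g : SL(2, ℤ)) : cuspAt (g * rot * rot) = cuspAt (g * T * S) := by
  rw [mul_assoc, rot_sq_eq, mul_neg, cuspAt_neg, ← mul_assoc]

theorem cuspAt_mul_rot_S (g : SL(2, ℤ)) : cuspAt (g * rot * S) = cuspAt (g * rot * rot) := by
  rw [cuspAt_mul_rot_rot, mul_assoc g rot S, rot_mul_S, ← mul_assoc, cuspAt_mul_T, mul_assoc]

theorem cuspAt_surjective : Function.Surjective cuspAt := by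
  intro x
  cases x with
  | infty => exact ⟨1, by simp [cuspAt]⟩
  | coe x =>
    obtain ⟨u, v, huv⟩ : IsCoprime x.num (x.den : ℤ) := by
      rw [Int.isCoprime_iff_gcd_eq_one]
      exact x.reduced
    obtain ⟨g, hg⟩ : ∃ g : SL(2, ℤ), g 0 0 = x.num ∧ g 1 0 = (x.den : ℤ) :=
      ⟨⟨!![x.num, -v; (x.den : ℤ), u], by rw [Matrix.det_fin_two_of]; linarith⟩, rfl, rfl⟩
    refine ⟨g, ?_⟩
    rw [cuspAt_eq_ite, hg.1, hg.2]
    simp [Rat.num_div_den]

theorem isCoprime_col (g : SL(2, ℤ)) : IsCoprime (g 0 0) (g 1 0) := by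
  refine ⟨g 1 1, -(g 0 1), ?_⟩
  have h := g.det_coe
  rw [Matrix.det_fin_two] at h
  linarith

theorem det_eq (g : SL(2, ℤ)) : g 0 0 * g 1 1 - g 0 1 * g 1 0 = 1 := by
  have h := g.det_coe
  rw [Matrix.det_fin_two] at h
  linarith

/-- Two elements with the same cusp at infinity differ by an upper triangular matrix. -/
theorem upper_of_cuspAt_eq {g h : SL(2, ℤ)} (hgh : cuspAt g = cuspAt h) : (g⁻¹ * h) 1 0 = 0 := by
  have h1 : toGL (g⁻¹ * h) • (OnePoint.infty : OnePoint ℚ) = OnePoint.infty := by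
    rw [map_mul, mul_smul, show toGL h • (OnePoint.infty : OnePoint ℚ) = cuspAt g from hgh.symm,
      cuspAt, ← mul_smul, ← map_mul, inv_mul_cancel, map_one, one_smul]
  rw [OnePoint.smul_infty_eq_self_iff, toGL_apply] at h1
  exact_mod_cast h1

/-- A Farey edge determines the matrix up to sign. -/
theorem eq_or_eq_neg_of_edge_eq {g h : SL(2, ℤ)} (h0 : cuspAt g = cuspAt h)
    (h1 : cuspAt (g * S) = cuspAt (h * S)) : h = g ∨ h = -g := by
  have a := upper_of_cuspAt_eq h0
  have b := upper_of_cuspAt_eq h1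
  set u := g⁻¹ * h with hu
  have hb : u 0 1 = 0 := by
    have : (g * S)⁻¹ * (h * S) = S⁻¹ * u * S := by rw [hu]; group
    rw [this] at b
    simpa [Matrix.mul_apply, Fin.sum_univ_two, coe_S, Matrix.adjugate_fin_two,
      Matrix.SpecialLinearGroup.coe_inv, Matrix.vecMul, dotProduct] using b
  have hd := det_eq u
  rw [a, hb] at hd
  have had : u 0 0 * u 1 1 = 1 := by linarith
  rcases Int.mul_eq_one_iff_eq_one_or_neg_one.mp had with ⟨x, y⟩ | ⟨x, y⟩
  · left
    have : u = 1 := by
      ext i j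
      fin_cases i <;> fin_cases j <;> simp [a, hb, x, y]
    rw [hu, inv_mul_eq_one] at this
    exact this.symm
  · right
    have : u = -1 := by
      ext i j
      fin_cases i <;> fin_cases j <;> simp [a, hb, x, y]
    rw [hu, inv_mul_eq_iff_eq_mul] at this
    rw [this, mul_neg_one]

/-- The Farey graph is connected. -/
theorem eq_of_edge_const {X : Type*} (f : OnePoint ℚ → X)
    (hf : ∀ g : SL(2, ℤ), f (cuspAt (g * S)) = f (cuspAt g)) (x y : OnePoint ℚ) : f x = f y := by
  suffices key : ∀ g : SL(2, ℤ), f (cuspAt g) = f (cuspAt 1) by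
    obtain ⟨g, rfl⟩ := cuspAt_surjective x
    obtain ⟨h, rfl⟩ := cuspAt_surjective y
    rw [key g, key h]
  intro g
  have hg : g ∈ Subgroup.closure ({S, T} : Set SL(2, ℤ)) := by
    rw [SpecialLinearGroup.SL2Z_generators]
    exact Subgroup.mem_top g
  suffices H : ∀ h, f (cuspAt (h * g)) = f (cuspAt h) by simpa using H 1
  induction hg using Subgroup.closure_induction with
  | mem x hx =>
    intro h
    rcases hx with rfl | rfl
    · exact hf h
    · rw [cuspAt_mul_T]
  | one => simp
  | mul x y _ _ hx hy =>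
    intro h
    rw [← mul_assoc, hy, hx]
  | inv x _ hx =>
    intro h
    have := hx (h * x⁻¹)
    simpa using this.symm

section Integrate

variable {A : Type*} [AddCommGroup A]

/-- `d` with `a d ≡ 1 (mod c)` and `0 ≤ d < c`. -/
def parentDen (a : ℤ) (c : ℕ) : ℕ := (Int.gcdA a c % c).toNat

theorem parentDen_lt (a : ℤ) {c : ℕ} (hc : c ≠ 0) : parentDen a c < c := by
  unfold parentDen
  have h1 := Int.emod_lt_of_pos (Int.gcdA a c) (show (0 : ℤ) < c by omega)
  have h2 := Int.emod_nonneg (Int.gcdA a c) (show (c : ℤ) ≠ 0 by omega)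
  omega

/-- `b` with `a d - b c = 1`. -/
def parentNum (a : ℤ) (c : ℕ) : ℤ := (a * parentDen a c - 1) / c

/-- Edge values indexed by the entries. -/
noncomputable def edgeVal (e : SL(2, ℤ) → A) (a b c d : ℤ) : A :=
  if h : a * d - b * c = 1 then e ⟨!![a, b; c, d], by rw [Matrix.det_fin_two_of]; exact h⟩ else 0

/-- The value of the primitive at `a / c`. -/
noncomputable def integral (e : SL(2, ℤ) → A) (c : ℕ) (a : ℤ) : A :=
  if _hc : c = 0 then 0
  else integral e (parentDen a c) (parentNum a c)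
    - edgeVal e a (parentNum a c) c (parentDen a c)
  termination_by c
  decreasing_by exact parentDen_lt a _hc

/-- The primitive as a function on cusps. -/
noncomputable def primitive (e : SL(2, ℤ) → A) : OnePoint ℚ → A
  | none => 0
  | some x => integral e x.den x.num

theorem primitive_cuspAt (e : SL(2, ℤ) → A) (g : SL(2, ℤ)) (hc : 0 < g 1 0) :
    primitive e (cuspAt g) = integral e (g 1 0).natAbs (g 0 0) := by
  rw [cuspAt_eq_ite, if_neg hc.ne']
  set a := g 0 0
  obtain ⟨c, hc'⟩ : ∃ c : ℕ, g 1 0 = c := ⟨(g 1 0).toNat, by omega⟩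
  have hco : a.natAbs.Coprime c := by
    have := Int.isCoprime_iff_gcd_eq_one.mp (isCoprime_col g)
    rw [hc'] at this
    exact this
  have hx : ((a : ℚ) / ((g 1 0 : ℤ) : ℚ)) = (Rat.normalize a c (by omega)) := by
    rw [Rat.normalize_eq_mkRat, Rat.mkRat_eq_div, hc']
    push_cast
    rfl
  change integral e ((a : ℚ) / ((g 1 0 : ℤ) : ℚ)).den ((a : ℚ) / ((g 1 0 : ℤ) : ℚ)).num = _
  rw [hx, Rat.normalize_eq, hc']
  simp [Nat.Coprime.gcd_eq_one hco]

variable {e : SL(2, ℤ) → A}

/-- The canonical edge out of `a / c`. -/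
theorem primitive_edge_canonical (g : SL(2, ℤ)) (h0 : 0 ≤ g 1 1)
    (h1 : g 1 1 < g 1 0) : primitive e (cuspAt (g * S)) - primitive e (cuspAt g) = e g := by
  have hc : 0 < g 1 0 := lt_of_le_of_lt h0 h1
  obtain ⟨c, hc'⟩ : ∃ c : ℕ, g 1 0 = c := ⟨(g 1 0).toNat, by omega⟩
  have hdet := det_eq g
  have hd : (parentDen (g 0 0) c : ℤ) = g 1 1 := by
    have hco : Int.gcd (g 0 0) c = 1 := by
      rw [← hc', ← Int.isCoprime_iff_gcd_eq_one]
      exact isCoprime_col g
    have hb := Int.gcd_eq_gcd_ab (g 0 0) c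
    rw [hco] at hb
    unfold parentDen
    rw [Int.toNat_of_nonneg (Int.emod_nonneg _ (by omega))]
    have hm : Int.gcdA (g 0 0) c ≡ g 1 1 [ZMOD c] := by
      rw [Int.modEq_iff_dvd]
      refine ⟨g 1 1 * Int.gcdB (g 0 0) c + g 0 1 * Int.gcdA (g 0 0) c, ?_⟩
      rw [hc'] at hdet
      push_cast at hb
      linear_combination (g 1 1) * hb + Int.gcdA (g 0 0) c * hdet
    rw [hm.eq, Int.emod_eq_of_lt h0 (by omega)]
  have hb : parentNum (g 0 0) c = g 0 1 := by
    unfold parentNum
    rw [hd, show g 0 0 * g 1 1 - 1 = g 0 1 * c from by rw [← hc']; linarith,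
      Int.mul_ediv_cancel _ (by omega)]
  have hi : integral e c (g 0 0) = integral e (parentDen (g 0 0) c) (g 0 1) - e g := by
    rw [integral, dif_neg (by omega), hb]
    congr 1
    unfold edgeVal
    rw [dif_pos (by rw [hd, ← hc']; exact hdet)]
    congr 1
    ext i j
    fin_cases i <;> fin_cases j <;> simp [hd, hc']
  rw [primitive_cuspAt e g hc, show (g 1 0).natAbs = c by omega, hi]
  rcases eq_or_lt_of_le h0 with hz | hz
  · have : parentDen (g 0 0) c = 0 := by omega
    rw [this, integral, dif_pos rfl, cuspAt_eq_ite]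
    simp [Matrix.mul_apply, Fin.sum_univ_two, coe_S, ← hz, primitive]
  · have e0 : (g * S) 1 0 = g 1 1 := by simp [Matrix.mul_apply, Fin.sum_univ_two, coe_S]
    have e1 : (g * S) 0 0 = g 0 1 := by simp [Matrix.mul_apply, Fin.sum_univ_two, coe_S]
    rw [primitive_cuspAt e (g * S) (by rw [e0]; exact hz), e0, e1,
      show (g 1 1).natAbs = parentDen (g 0 0) c by omega]
    abel

/-- An edge function with vanishing sum around each Farey triangle has a primitive. -/
theorem exists_primitive (hneg : ∀ g, e (-g) = e g) (hS : ∀ g, e (g * S) = -e g)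
    (hrot : ∀ g, e g + e (g * rot) + e (g * rot * rot) = 0) :
    ∃ f : OnePoint ℚ → A, ∀ g, f (cuspAt (g * S)) - f (cuspAt g) = e g := by
  refine ⟨primitive e, ?_⟩
  suffices key : ∀ n : ℕ, ∀ g : SL(2, ℤ), (g 1 0).natAbs + (g 1 1).natAbs = n →
      primitive e (cuspAt (g * S)) - primitive e (cuspAt g) = e g from fun g => key _ g rfl
  intro n
  induction n using Nat.strong_induction_on with
  | _ n ih =>
    -- edges `(g ∞, g 0)` with `-c ≤ d < c`
    have main : ∀ g : SL(2, ℤ), (g 1 0).natAbs + (g 1 1).natAbs = n → 0 < g 1 0 →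
        -(g 1 0) ≤ g 1 1 → g 1 1 < g 1 0 →
        primitive e (cuspAt (g * S)) - primitive e (cuspAt g) = e g := by
      intro g hn hc hlo hhi
      by_cases h0 : 0 ≤ g 1 1
      · exact primitive_edge_canonical g h0 hhi
      push Not at h0
      have hT0 : (g * T) 1 0 = g 1 0 := by simp [Matrix.mul_apply, Fin.sum_univ_two, coe_T]
      have hT1 : (g * T) 1 1 = g 1 0 + g 1 1 := by
        simp [Matrix.mul_apply, Fin.sum_univ_two, coe_T]
      have hR0 : (g * rot) 1 0 = -(g 1 1) := by
        simp [Matrix.mul_apply, Fin.sum_univ_two, coe_rot]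
      have hR1 : (g * rot) 1 1 = g 1 0 + g 1 1 := by
        simp [Matrix.mul_apply, Fin.sum_univ_two, coe_rot]
      have hA := primitive_edge_canonical (e := e) (g * T) (by rw [hT1]; omega)
        (by rw [hT0, hT1]; omega)
      have hB := ih _ (show ((g * rot) 1 0).natAbs + ((g * rot) 1 1).natAbs < n by
        rw [hR0, hR1]; omega) (g * rot) rfl
      rw [cuspAt_mul_rot_S, cuspAt_mul_rot_rot, cuspAt_mul_rot] at hB
      rw [cuspAt_mul_T] at hA
      have h3 : e (g * rot * rot) = -e (g * T) := by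
        have hx := hS (g * rot * rot)
        rw [show g * rot * rot * S = g * T by
          rw [← rot_mul_rot_mul_S, mul_assoc, mul_assoc, mul_assoc]] at hx
        rw [hx, neg_neg]
      have h4 : e g = e (g * T) - e (g * rot) := by
        have hs := hrot g
        rw [h3] at hs
        rw [eq_sub_iff_add_eq, ← sub_eq_zero, sub_eq_add_neg]
        exact hs
      rw [h4, ← hA, ← hB]
      abel
    intro g hn
    wlog hc : 0 ≤ g 1 0 generalizing g with H
    · have hh := H (-g) (by simpa using hn) (by simp at hc ⊢; omega)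
      rwa [neg_mul, cuspAt_neg, cuspAt_neg, hneg] at hh
    by_cases h : -(g 1 0) ≤ g 1 1 ∧ g 1 1 < g 1 0
    · exact main g hn (by omega) h.1 h.2
    · -- reverse the edge
      have hswap : ∀ k : SL(2, ℤ), cuspAt (k * S * S) = cuspAt k := fun k =>
        by rw [mul_assoc, show S * S = (-1 : SL(2, ℤ)) by decide, mul_neg_one, cuspAt_neg]
      have e0 : (g * S) 1 0 = g 1 1 := by simp [Matrix.mul_apply, Fin.sum_univ_two, coe_S]
      have e1 : (g * S) 1 1 = -(g 1 0) := by simp [Matrix.mul_apply, Fin.sum_univ_two, coe_S]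
      have hdet := det_eq g
      by_cases hd : 0 ≤ g 1 1
      · have hd' : 0 < g 1 1 := by
          rcases eq_or_lt_of_le hd with hz | hz
          · rw [← hz] at hdet
            have hc1 : g 1 0 ≠ 0 := by intro hc0; rw [hc0] at hdet; simp at hdet
            omega
          · exact hz
        have hh := main (g * S) (by rw [e0, e1]; omega) (by rw [e0]; exact hd')
          (by rw [e0, e1]; omega) (by rw [e0, e1]; omega)
        rw [hswap, hS] at hh
        rw [← neg_sub, hh, neg_neg]
      · push Not at hd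
        have e0' : (-(g * S)) 1 0 = -(g 1 1) := by simp [Matrix.mul_apply, Fin.sum_univ_two, coe_S]
        have e1' : (-(g * S)) 1 1 = g 1 0 := by simp [Matrix.mul_apply, Fin.sum_univ_two, coe_S]
        have hh := main (-(g * S)) (by rw [e0', e1']; omega) (by rw [e0']; omega)
          (by rw [e0', e1']; omega) (by rw [e0', e1']; omega)
        rw [neg_mul, cuspAt_neg, cuspAt_neg, hneg, hswap, hS] at hh
        rw [← neg_sub, hh, neg_neg]

end Integrate

end Fermat.Agent.Duality
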