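/-
Finite ribbon graphs: a finite set with an involution `σ` (edge reversal) and a rotation `ρ` of
order three (triangles); `σ ∘ ρ ∘ ρ` turns around the vertices. Edge functions, their cup product
sum, and the Poincaré dual of a cycle.
-/
import Mathlib.Algebra.BigOperators.Group.Finset.Basic
import Mathlib.Algebra.Module.Rat
import Mathlib.LinearAlgebra.Finsupp.LinearCombination
import Mathlib.Tactic

set_option autoImplicit false

namespace Fermat.Agent.Duality

open Finset

/-- A ribbon graph structure on a set. -/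
structure Ribbon (Q : Type*) where
  σ : Equiv.Perm Q
  ρ : Equiv.Perm Q
  σσ : ∀ q, σ (σ q) = q
  ρρρ : ∀ q, ρ (ρ (ρ q)) = q

namespace Ribbon

variable {Q : Type*} (G : Ribbon Q)

/-- Rotation around a vertex. -/
def τ : Equiv.Perm Q where
  toFun q := G.σ (G.ρ (G.ρ q))
  invFun q := G.ρ (G.σ q)
  left_inv q := by simp [G.σσ, G.ρρρ]
  right_inv q := by simp [G.σσ, G.ρρρ]

theorem τ_apply (q : Q) : G.τ q = G.σ (G.ρ (G.ρ q)) := rfl
theorem τ_symm_apply (q : Q) : G.τ.symm q = G.ρ (G.σ q) := rfl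

/-- An edge function: antisymmetric, with zero sum around each triangle. -/
structure IsEdgeFun {A : Type*} [AddCommGroup A] (v : Q → A) : Prop where
  anti : ∀ q, v (G.σ q) = -v q
  tri : ∀ q, v q + v (G.ρ q) + v (G.ρ (G.ρ q)) = 0

variable [Fintype Q] {R : Type*} [CommRing R]

/-- Sum over all corners of the antisymmetrised cup product. -/
def cupSum (u v : Q → R) : R := ∑ q, (u q * v (G.ρ q) - u (G.ρ q) * v q)

theorem cupSum_swap (u v : Q → R) : G.cupSum u v = -G.cupSum v u := by
  simp only [cupSum, ← Finset.sum_neg_distrib]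
  exact Finset.sum_congr rfl fun q _ => by ring

theorem cupSum_eq (u v : Q → R) :
    G.cupSum u v = ∑ q, u q * (v (G.ρ q) - v (G.ρ (G.ρ q))) := by
  simp only [cupSum, mul_sub, Finset.sum_sub_distrib]
  congr 1
  rw [← Equiv.sum_comp G.ρ (fun q => u q * v (G.ρ (G.ρ q)))]
  simp [G.ρρρ]

variable {G}

omit [Fintype Q] in
theorem IsEdgeFun.τ_eq {v : Q → R} (hv : G.IsEdgeFun v) (q : Q) :
    v (G.τ q) = v q + v (G.ρ q) := by
  rw [τ_apply, hv.anti]
  linear_combination -(hv.tri q)

/-- Cup product with `k - k ∘ σ`. -/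
theorem cupSum_sub_comp_σ (k : Q → R) {v : Q → R} (hv : G.IsEdgeFun v) :
    G.cupSum (fun q => k q - k (G.σ q)) v =
      2 * ∑ q, v q * (k (G.τ.symm q) - k (G.τ q)) := by
  rw [cupSum_eq]
  have key : ∀ q, v (G.ρ q) - v (G.ρ (G.ρ q))
      - (v (G.ρ (G.σ q)) - v (G.ρ (G.ρ (G.σ q)))) =
      2 * (v (G.τ q) - v (G.τ.symm q)) := by
    intro q
    rw [hv.τ_eq, τ_symm_apply]
    linear_combination -(hv.tri q) + hv.tri (G.σ q) - hv.anti q
  calc ∑ q, (k q - k (G.σ q)) * (v (G.ρ q) - v (G.ρ (G.ρ q)))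
      = ∑ q, k q * (v (G.ρ q) - v (G.ρ (G.ρ q))) -
          ∑ q, k (G.σ q) * (v (G.ρ q) - v (G.ρ (G.ρ q))) := by
        rw [← Finset.sum_sub_distrib]
        exact Finset.sum_congr rfl fun q _ => by ring
    _ = ∑ q, k q * (2 * (v (G.τ q) - v (G.τ.symm q))) := by
        rw [← Equiv.sum_comp G.σ (fun q => k (G.σ q) * (v (G.ρ q) - v (G.ρ (G.ρ q)))),
          ← Finset.sum_sub_distrib]
        exact Finset.sum_congr rfl fun q _ => by rw [← key q, G.σσ]; ring
    _ = 2 * (∑ q, k q * v (G.τ q) - ∑ q, k q * v (G.τ.symm q)) := by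
        rw [← Finset.sum_sub_distrib, Finset.mul_sum]
        exact Finset.sum_congr rfl fun q _ => by ring
    _ = _ := by
        rw [← Equiv.sum_comp G.τ.symm (fun q => k q * v (G.τ q)),
          ← Equiv.sum_comp G.τ (fun q => k q * v (G.τ.symm q)),
          ← Finset.sum_sub_distrib]
        congr 1
        exact Finset.sum_congr rfl fun q _ => by simp; ring

/-- Cup product with a coboundary of a function of the vertices vanishes. -/
theorem cupSum_coboundary {h : Q → R} (hh : ∀ q, h (G.τ q) = h q) {v : Q → R}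
    (hv : G.IsEdgeFun v) : G.cupSum (fun q => h q - h (G.σ q)) v = 0 := by
  rw [cupSum_sub_comp_σ h hv, Finset.sum_eq_zero, mul_zero]
  intro q _
  have : h (G.τ.symm q) = h q := by
    conv_rhs => rw [← G.τ.apply_symm_apply q]
    rw [hh]
  rw [this, hh, sub_self, mul_zero]

end Ribbon

section Solve

open Classical in
/-- A function with zero sum against all invariant functions of a permutation is a difference. -/
theorem exists_sub_comp_eq {Q : Type*} [Fintype Q] (τ : Equiv.Perm Q) (y : Q → ℤ)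
    (hy : ∀ h : Q → ℤ, (∀ q, h (τ q) = h q) → ∑ q, y q * h q = 0) :
    ∃ k : Q → ℤ, ∀ q, k q - k (τ q) = y q := by
  set s := MulAction.orbitRel (Subgroup.zpowers τ) Q
  let rep : Q → Q := fun q => (Quotient.mk s q).out
  have hrep : ∀ q, rep (τ q) = rep q := by
    intro q
    have hq : (Quotient.mk s (τ q)) = Quotient.mk s q :=
      Quotient.sound ⟨⟨τ, Subgroup.mem_zpowers τ⟩, rfl⟩
    show Quotient.out _ = Quotient.out _
    rw [hq]
  let L : (Q → ℤ) →ₗ[ℤ] (Q → ℤ) :=
    { toFun := fun k q => k q - k (τ q)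
      map_add' := fun a b => by funext q; simp; ring
      map_smul' := fun c a => by funext q; simp; ring }
  let e : Q → Q → ℤ := fun x q => if q = x then 1 else 0
  have hstep : ∀ x, e x - e (τ.symm x) ∈ LinearMap.range L := by
    intro x
    refine ⟨e x, ?_⟩
    funext q
    have : (τ q = x) ↔ (q = τ.symm x) := (Equiv.eq_symm_apply τ).symm
    simp [L, e, this]
  have horb : ∀ x, e x - e (rep x) ∈ LinearMap.range L := by
    intro x
    obtain ⟨⟨m, hm⟩, hx⟩ : rep x ∈ MulAction.orbit (Subgroup.zpowers τ) x :=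
      Quotient.exact (s := s) (Quotient.out_eq (Quotient.mk s x))
    rw [← hx]
    show e x - e (m x) ∈ _
    have hm' : m ∈ Subgroup.closure {τ} := by rwa [← Subgroup.zpowers_eq_closure]
    suffices H : ∀ a ∈ Subgroup.closure {τ}, ∀ z, e z - e (a z) ∈ LinearMap.range L from
      H m hm' x
    intro a ha
    induction ha using Subgroup.closure_induction with
    | mem a ha =>
      intro z
      rw [Set.mem_singleton_iff] at ha
      have := Submodule.neg_mem _ (hstep (τ z))
      simpa [ha] using this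
    | one => simp
    | mul a b _ _ ha hb =>
      intro z
      have := Submodule.add_mem _ (hb z) (ha (b z))
      simpa using this
    | inv a _ ha =>
      intro z
      have := Submodule.neg_mem _ (ha (a⁻¹ z))
      simpa using this
  have hdec : y = ∑ x, y x • (e x - e (rep x)) := by
    funext q
    simp only [Finset.sum_apply, Pi.smul_apply, Pi.sub_apply, smul_eq_mul, mul_sub,
      Finset.sum_sub_distrib]
    have h1 : ∑ x, y x * e x q = y q := by simp [e]
    have h2 : ∑ x, y x * e (rep x) q = 0 := hy (fun x => e (rep x) q) fun x => by rw [hrep]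
    rw [h1, h2, sub_zero]
  obtain ⟨k, hk⟩ : y ∈ LinearMap.range L := by
    rw [hdec]
    exact Submodule.sum_mem _ fun x _ => Submodule.smul_mem _ _ (horb x)
  exact ⟨k, fun q => congrFun hk q⟩

end Solve

namespace Ribbon

variable {Q : Type*} [Fintype Q] (G : Ribbon Q)

/-- The Poincaré dual of a cycle `z`. -/
theorem exists_dual (z : Q → ℤ)
    (hz : ∀ h : Q → ℤ, (∀ q, h (G.τ q) = h q) → ∑ q, z q * (h (G.σ q) - h q) = 0) :
    ∃ u : Q → ℤ, G.IsEdgeFun u ∧ ∀ v : Q → ℤ, G.IsEdgeFun v →
      G.cupSum u v = 12 * ∑ q, z q * v q := by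
  set y : Q → ℤ := fun q => z q - z (G.σ q) with hy
  have yanti : ∀ q, y (G.σ q) = -y q := fun q => by simp [hy, G.σσ]
  obtain ⟨k0, hk0⟩ := exists_sub_comp_eq G.τ y (fun h hh => by
    have := hz h hh
    simp only [hy, sub_mul, Finset.sum_sub_distrib]
    rw [← Equiv.sum_comp G.σ (fun q => z (G.σ q) * h q)]
    simp only [G.σσ]
    simp only [mul_sub, Finset.sum_sub_distrib] at this
    linarith)
  set k : Q → ℤ := fun q => k0 q + k0 (G.τ q) with hk
  refine ⟨fun q => k q - k (G.σ q), ⟨fun q => by simp [G.σσ], fun q => ?_⟩, fun v hv => ?_⟩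
  · have e : ∀ p, k (G.σ p) = k (G.τ (G.ρ p)) := fun p => by rw [τ_apply, G.ρρρ]
    have d : ∀ p, k p - k (G.τ p) = y p - y (G.ρ (G.ρ p)) := fun p => by
      have h1 := hk0 p
      have h2 := hk0 (G.τ p)
      have h3 : y (G.τ p) = -y (G.ρ (G.ρ p)) := yanti _
      simp only [hk]
      linarith
    have d0 := d q
    have d1 := d (G.ρ q)
    have d2 := d (G.ρ (G.ρ q))
    rw [G.ρρρ] at d1
    rw [show G.ρ (G.ρ (G.ρ (G.ρ q))) = G.ρ q by rw [G.ρρρ]] at d2
    simp only [e, G.ρρρ]
    linarith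
  · rw [cupSum_sub_comp_σ k hv]
    have hp : ∀ q, k (G.τ.symm q) - k (G.τ q) = y (G.τ.symm q) + 2 * y q + y (G.τ q) := by
      intro q
      have h1 := hk0 (G.τ.symm q)
      have h2 := hk0 q
      have h3 := hk0 (G.τ q)
      rw [Equiv.apply_symm_apply] at h1
      simp only [hk, Equiv.apply_symm_apply]
      linarith
    simp only [hp, mul_add, Finset.sum_add_distrib]
    have hA : ∑ q, v q * y (G.τ.symm q) = ∑ q, (v q * y q + v (G.ρ q) * y q) := by
      rw [← Equiv.sum_comp G.τ (fun q => v q * y (G.τ.symm q))]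
      refine Finset.sum_congr rfl fun q _ => ?_
      rw [Equiv.symm_apply_apply, hv.τ_eq, add_mul]
    have hB : ∑ q, v q * y (G.τ q) = -∑ q, v (G.ρ q) * y q := by
      rw [← Equiv.sum_comp G.τ.symm (fun q => v q * y (G.τ q))]
      simp only [Equiv.apply_symm_apply]
      simp only [τ_symm_apply]
      rw [← Equiv.sum_comp G.σ (fun q => v (G.ρ (G.σ q)) * y q), ← Finset.sum_neg_distrib]
      exact Finset.sum_congr rfl fun q _ => by rw [G.σσ, yanti]; ring
    have hC : ∑ q, v q * y q = 2 * ∑ q, z q * v q := by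
      simp only [hy, mul_sub, Finset.sum_sub_distrib]
      rw [← Equiv.sum_comp G.σ (fun q => v q * z (G.σ q))]
      simp only [G.σσ, hv.anti, Finset.mul_sum, ← Finset.sum_sub_distrib]
      exact Finset.sum_congr rfl fun q _ => by ring
    have hD : ∑ q, v q * (2 * y q) = 2 * ∑ q, v q * y q := by
      rw [Finset.mul_sum]
      exact Finset.sum_congr rfl fun q _ => by ring
    rw [hA, hB, hD, Finset.sum_add_distrib, hC]
    ring

open Classical in
/-- On a connected ribbon graph a rotation invariant function of total zero is the triangle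
sum of an antisymmetric function. -/
theorem exists_tri_eq {K : Type*} [Field K] [CharZero K] [Nonempty Q]
    (hconn : ∀ P : Q → Prop, (∀ q, P q → P (G.σ q)) → (∀ q, P q → P (G.ρ q)) →
      ∀ x, P x → ∀ y, P y)
    (f : Q → K) (hf : ∀ q, f (G.ρ q) = f q) (h0 : ∑ q, f q = 0) :
    ∃ b : Q → K, (∀ q, b (G.σ q) = -b q) ∧ ∀ q, b q + b (G.ρ q) + b (G.ρ (G.ρ q)) = f q := by
  let V : Submodule K (Q → K) :=
    { carrier := {b | ∀ q, b (G.σ q) = -b q}
      zero_mem' := fun q => by simp
      add_mem' := fun ha hb q => by simp [ha q, hb q]; ring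
      smul_mem' := fun c a ha q => by simp [ha q] }
  let L : (Q → K) →ₗ[K] (Q → K) :=
    { toFun := fun b q => b q + b (G.ρ q) + b (G.ρ (G.ρ q))
      map_add' := fun a b => by funext q; simp; ring
      map_smul' := fun c a => by funext q; simp; ring }
  let e : Q → Q → K := fun x q => if q = x then 1 else 0
  have hσ : ∀ x, L (e x) - L (e (G.σ x)) ∈ Submodule.map L V := by
    intro x
    refine ⟨e x - e (G.σ x), fun q => ?_, map_sub L _ _⟩
    have i1 : G.σ q = x ↔ q = G.σ x :=
      ⟨fun h => by rw [← h, G.σσ], fun h => by rw [h, G.σσ]⟩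
    have i2 : G.σ q = G.σ x ↔ q = x := G.σ.injective.eq_iff
    simp [e, i1, i2]
  have hρ : ∀ x, L (e (G.ρ x)) = L (e x) := by
    intro x
    funext q
    have i0 : G.ρ q = G.ρ x ↔ q = x := G.ρ.injective.eq_iff
    have i1 : G.ρ (G.ρ q) = G.ρ x ↔ G.ρ q = x := G.ρ.injective.eq_iff
    have i2 : G.ρ (G.ρ q) = x ↔ q = G.ρ x :=
      ⟨fun h => by rw [← h, G.ρρρ], fun h => by rw [h, G.ρρρ]⟩
    show e (G.ρ x) q + e (G.ρ x) (G.ρ q) + e (G.ρ x) (G.ρ (G.ρ q)) =
      e x q + e x (G.ρ q) + e x (G.ρ (G.ρ q))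
    simp only [e, i0, i1, i2]
    ring
  obtain ⟨x0⟩ := ‹Nonempty Q›
  have hall : ∀ y, L (e x0) - L (e y) ∈ Submodule.map L V := by
    refine hconn (fun y => L (e x0) - L (e y) ∈ Submodule.map L V) ?_ ?_ x0 (by simp)
    · intro q hq
      simpa using Submodule.add_mem _ hq (hσ q)
    · intro q hq
      rwa [hρ]
  have hfL : (3 : K) • f = ∑ q, f q • L (e q) := by
    funext p
    have step : ∀ r, ∑ q, f q * e q r = f r := fun r => by simp [e]
    show (3 : K) * f p = _
    simp only [Finset.sum_apply, Pi.smul_apply, smul_eq_mul]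
    show _ = ∑ q, f q * (e q p + e q (G.ρ p) + e q (G.ρ (G.ρ p)))
    simp only [mul_add, Finset.sum_add_distrib, step, hf]
    ring
  obtain ⟨b, hb, hbf⟩ : f ∈ Submodule.map L V := by
    have h3 : (3 : K) • f ∈ Submodule.map L V := by
      have : (3 : K) • f = ∑ q, f q • (L (e q) - L (e x0)) := by
        simp only [smul_sub, Finset.sum_sub_distrib, ← Finset.sum_smul, h0, zero_smul, sub_zero]
        exact hfL
      rw [this]
      refine Submodule.sum_mem _ fun q _ => Submodule.smul_mem _ _ ?_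
      simpa using Submodule.neg_mem _ (hall q)
    simpa using Submodule.smul_mem _ (3 : K)⁻¹ h3
  exact ⟨b, hb, fun q => congrFun hbf q⟩

end Ribbon

end Fermat.Agent.Duality
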