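/-
Potentials of parabolic homomorphisms, sums over cosets, the ribbon graph of a finite index
subgroup of SL(2, ℤ), and triangle sums.
-/
import Fermat.Agent.Duality.Farey
import Fermat.Agent.Duality.Ribbon
import Fermat.Prelude.Def_ModularCurve_PeriodMap
import Mathlib.GroupTheory.Index
import Mathlib.GroupTheory.GroupAction.Quotient

set_option autoImplicit false

namespace Fermat.Agent.Duality

open scoped MatrixGroups
open ModularGroup ModularCurve.Period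

attribute [local instance] Subgroup.fintypeQuotientOfFiniteIndex

/-- Every element of trace `±2` fixes a cusp. -/
theorem exists_fixed_cusp (γ : SL(2, ℤ)) (h : (γ : Matrix (Fin 2) (Fin 2) ℤ).trace ^ 2 = 4) :
    ∃ x : OnePoint ℚ, toGL γ • x = x := by
  rw [Matrix.trace_fin_two] at h
  by_cases hc : γ 1 0 = 0
  · exact ⟨OnePoint.infty, by rw [OnePoint.smul_infty_eq_self_iff]; simp [hc]⟩
  have hdet := det_eq γ
  have hcq : (γ 1 0 : ℚ) ≠ 0 := by exact_mod_cast hc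
  have hs : ((γ 0 0 : ℚ) + γ 1 1) ^ 2 = 4 := by exact_mod_cast h
  have hd : (γ 0 0 : ℚ) * γ 1 1 - γ 0 1 * γ 1 0 = 1 := by exact_mod_cast hdet
  have hne : (γ 0 0 : ℚ) + γ 1 1 ≠ 0 := by
    intro h0; rw [h0] at hs; norm_num at hs
  refine ⟨((((γ 0 0 : ℚ) - γ 1 1) / (2 * γ 1 0) : ℚ) : OnePoint ℚ), ?_⟩
  rw [OnePoint.smul_some_eq_ite]
  simp only [toGL_apply]
  have hden : (γ 1 0 : ℚ) * (((γ 0 0 : ℚ) - γ 1 1) / (2 * γ 1 0)) + γ 1 1
      = ((γ 0 0 : ℚ) + γ 1 1) / 2 := by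
    field_simp
    ring
  rw [hden, if_neg (div_ne_zero hne two_ne_zero)]
  congr 1
  field_simp
  linear_combination hs - 4 * hd

/-- An element of `SL(2, ℤ)` fixing a cusp has trace `±2`. -/
theorem trace_sq_of_fixed {γ : SL(2, ℤ)} {x : OnePoint ℚ} (hx : toGL γ • x = x) :
    (γ : Matrix (Fin 2) (Fin 2) ℤ).trace ^ 2 = 4 := by
  obtain ⟨g, rfl⟩ := cuspAt_surjective x
  rw [toGL_smul_cuspAt] at hx
  have hu := upper_of_cuspAt_eq hx.symm
  rw [← mul_assoc] at hu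
  have htr : ((g⁻¹ * γ * g : SL(2, ℤ)) : Matrix (Fin 2) (Fin 2) ℤ).trace =
      (γ : Matrix (Fin 2) (Fin 2) ℤ).trace := by
    rw [Matrix.SpecialLinearGroup.coe_mul, Matrix.trace_mul_comm,
      ← Matrix.SpecialLinearGroup.coe_mul, ← mul_assoc, mul_inv_cancel, one_mul]
  rw [← htr, Matrix.trace_fin_two]
  have hd := det_eq (g⁻¹ * γ * g)
  rw [hu, mul_zero, sub_zero] at hd
  rcases Int.mul_eq_one_iff_eq_one_or_neg_one.mp hd with ⟨a, b⟩ | ⟨a, b⟩ <;>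
    rw [a, b] <;> norm_num

variable {Γ : Subgroup SL(2, ℤ)}

/-- `Φ` is a function of the cusps shifted by `φ` under the action of `Γ`. -/
def IsPot {A : Type*} [AddCommGroup A] (φ : Additive Γ →+ A) (Φ : OnePoint ℚ → A) : Prop :=
  ∀ (γ : Γ) (x : OnePoint ℚ), Φ (toGL (γ : SL(2, ℤ)) • x) = φ (Additive.ofMul γ) + Φ x

theorem IsPot.isParabolicHom {A : Type*} [AddCommGroup A] {φ : Additive Γ →+ A}
    {Φ : OnePoint ℚ → A} (hΦ : IsPot φ Φ) : IsParabolicHom Γ φ := by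
  intro γ hγ
  obtain ⟨x, hx⟩ := exists_fixed_cusp _ hγ
  have h := hΦ γ x
  rw [hx] at h
  simpa using h

theorem exists_isPot {A : Type*} [AddCommGroup A] {φ : Additive Γ →+ A}
    (hφ : IsParabolicHom Γ φ) : ∃ Φ, IsPot φ Φ := by
  classical
  let s : Setoid (OnePoint ℚ) :=
    { r := fun x y => ∃ g ∈ Γ, toGL g • x = y
      iseqv :=
        ⟨fun x => ⟨1, Γ.one_mem, by rw [map_one, one_smul]⟩,
         fun {x y} ⟨g, hg, h⟩ => ⟨g⁻¹, Γ.inv_mem hg, by rw [← h, map_inv, inv_smul_smul]⟩,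
         fun {x y z} ⟨g, hg, h⟩ ⟨k, hk, h'⟩ =>
          ⟨k * g, Γ.mul_mem hk hg, by rw [map_mul, mul_smul, h, h']⟩⟩ }
  have hrep : ∀ x, ∃ γ : Γ, toGL (γ : SL(2, ℤ)) • (Quotient.mk s x).out = x := fun x => by
    obtain ⟨g, hg, h⟩ := Quotient.exact (s := s) (Quotient.out_eq (Quotient.mk s x))
    exact ⟨⟨g, hg⟩, h⟩
  choose G hG using hrep
  refine ⟨fun x => φ (Additive.ofMul (G x)), fun γ x => ?_⟩
  generalize hy : toGL (γ : SL(2, ℤ)) • x = y
  have hq : Quotient.mk s y = Quotient.mk s x :=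
    (Quotient.sound (s := s) ⟨γ, γ.2, hy⟩).symm
  have hb := hG y
  have ha := hG x
  rw [hq] at hb
  generalize (Quotient.mk s x).out = z at ha hb
  have hfix : toGL ((((G y)⁻¹ * (γ * G x) : Γ)) : SL(2, ℤ)) • z = z := by
    rw [Subgroup.coe_mul, Subgroup.coe_mul, Subgroup.coe_inv, map_mul, mul_smul, map_mul,
      mul_smul, ha, hy, map_inv, inv_smul_eq_iff, hb]
  have h0 := hφ _ (trace_sq_of_fixed hfix)
  rw [ofMul_mul, ofMul_mul, ofMul_inv, map_add, map_add, map_neg, neg_add_eq_zero] at h0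
  exact h0

/-- A chosen potential of a parabolic homomorphism. -/
noncomputable def pot {A : Type*} [AddCommGroup A] (φ : Additive Γ →+ A) : OnePoint ℚ → A :=
  haveI := Classical.propDecidable
  if h : ∃ Φ, IsPot φ Φ then h.choose else 0

theorem isPot_pot {A : Type*} [AddCommGroup A] {φ : Additive Γ →+ A} (hφ : IsParabolicHom Γ φ) :
    IsPot φ (pot φ) := by
  unfold pot
  rw [dif_pos (exists_isPot hφ)]
  exact (exists_isPot hφ).choose_spec

theorem IsPot.add {A : Type*} [AddCommGroup A] {φ ψ : Additive Γ →+ A} {Φ Ψ : OnePoint ℚ → A}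
    (hΦ : IsPot φ Φ) (hΨ : IsPot ψ Ψ) : IsPot (φ + ψ) (Φ + Ψ) := by
  intro γ x
  simp only [Pi.add_apply, AddMonoidHom.add_apply, hΦ γ x, hΨ γ x]
  abel

theorem IsPot.smul {R A : Type*} [Semiring R] [AddCommGroup A] [Module R A]
    {φ : Additive Γ →+ A} {Φ : OnePoint ℚ → A} (c : R) (hΦ : IsPot φ Φ) :
    IsPot (c • φ) (c • Φ) := by
  intro γ x
  simp only [Pi.smul_apply, hΦ γ x, smul_add]
  rfl

theorem IsPot.map {A B : Type*} [AddCommGroup A] [AddCommGroup B]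
    {φ : Additive Γ →+ A} {Φ : OnePoint ℚ → A} (f : A →+ B) (hΦ : IsPot φ Φ) :
    IsPot (f.comp φ) (f ∘ Φ) := by
  intro γ x
  simp [hΦ γ x]

section CosetSum

/-- Left invariance under `Γ`. -/
def IsInv (Γ : Subgroup SL(2, ℤ)) {A : Type*} (F : SL(2, ℤ) → A) : Prop :=
  ∀ γ ∈ Γ, ∀ g, F (γ * g) = F g

theorem IsInv.apply_out {A : Type*} {F : SL(2, ℤ) → A} (hF : IsInv Γ F) (g : SL(2, ℤ)) :
    F ((g : SL(2, ℤ) ⧸ Γ).out)⁻¹ = F g⁻¹ := by
  obtain ⟨h, hh⟩ := QuotientGroup.mk_out_eq_mul Γ g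
  rw [hh, mul_inv_rev]
  exact hF _ (inv_mem h.2) _

theorem IsInv.apply_smul_out {A : Type*} {F : SL(2, ℤ) → A} (hF : IsInv Γ F) (x : SL(2, ℤ))
    (q : SL(2, ℤ) ⧸ Γ) : F ((x⁻¹ • q).out)⁻¹ = F ((q.out)⁻¹ * x) := by
  conv_lhs => rw [← QuotientGroup.out_eq' q]
  rw [MulAction.Quotient.smul_coe, hF.apply_out, smul_eq_mul, mul_inv_rev, inv_inv]

variable [Γ.FiniteIndex] {A : Type*} [AddCommGroup A]

/-- The sum of a left invariant function over `Γ \ SL(2, ℤ)`. -/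
noncomputable def cosetSum (Γ : Subgroup SL(2, ℤ)) [Γ.FiniteIndex] (F : SL(2, ℤ) → A) : A :=
  ∑ q : SL(2, ℤ) ⧸ Γ, F (q.out)⁻¹

theorem cosetSum_congr {F G : SL(2, ℤ) → A} (h : ∀ g, F g = G g) :
    cosetSum Γ F = cosetSum Γ G := by
  rw [funext h]

theorem cosetSum_mul_right {F : SL(2, ℤ) → A} (hF : IsInv Γ F) (x : SL(2, ℤ)) :
    cosetSum Γ (fun g => F (g * x)) = cosetSum Γ F := by
  unfold cosetSum
  simp_rw [← hF.apply_smul_out x]
  exact Equiv.sum_comp (MulAction.toPerm x⁻¹) (fun q : SL(2, ℤ) ⧸ Γ => F (q.out)⁻¹)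

theorem cosetSum_add (F G : SL(2, ℤ) → A) :
    cosetSum Γ (fun g => F g + G g) = cosetSum Γ F + cosetSum Γ G :=
  Finset.sum_add_distrib

/-- A family of representatives of the right cosets `H \ Γ`. -/
def IsReps (H Γ : Subgroup SL(2, ℤ)) {ι : Type*} (r : ι → SL(2, ℤ)) : Prop :=
  (∀ i, r i ∈ Γ) ∧ ∀ γ ∈ Γ, ∃! i, γ * (r i)⁻¹ ∈ H

theorem cosetSum_subgroup {H : Subgroup SL(2, ℤ)} [H.FiniteIndex] (hH : H ≤ Γ)
    {ι : Type*} [Fintype ι] {r : ι → SL(2, ℤ)} (hr : IsReps H Γ r)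
    {F : SL(2, ℤ) → A} (hF : IsInv H F) :
    cosetSum H F = cosetSum Γ (fun g => ∑ i, F (r i * g)) := by
  unfold cosetSum
  rw [← Fintype.sum_prod_type (fun p : (SL(2, ℤ) ⧸ Γ) × ι => F (r p.2 * (p.1.out)⁻¹))]
  refine (Fintype.sum_bijective
    (fun p : (SL(2, ℤ) ⧸ Γ) × ι => ((p.1.out * (r p.2)⁻¹ : SL(2, ℤ)) : SL(2, ℤ) ⧸ H))
    ⟨?_, ?_⟩ _ _ ?_).symm
  · rintro ⟨q, i⟩ ⟨q', i'⟩ h
    rw [QuotientGroup.eq] at h
    have hq : q = q' := by
      rw [← QuotientGroup.out_eq' q, ← QuotientGroup.out_eq' q', QuotientGroup.eq]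
      have h2 := Γ.mul_mem (Γ.mul_mem (Γ.inv_mem (hr.1 i)) (hH h)) (hr.1 i')
      simpa [mul_assoc] using h2
    subst hq
    have hi : r i * (r i')⁻¹ ∈ H := by simpa [mul_assoc] using h
    obtain ⟨j, -, hj⟩ := hr.2 (r i) (hr.1 i)
    have e1 := hj i (by simp)
    have e2 := hj i' hi
    rw [e1, e2]
  · intro c
    obtain ⟨g, rfl⟩ := QuotientGroup.mk_surjective c
    have hm : g⁻¹ * (g : SL(2, ℤ) ⧸ Γ).out ∈ Γ := by
      rw [← QuotientGroup.eq, QuotientGroup.out_eq']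
    obtain ⟨i, hi, -⟩ := hr.2 _ hm
    refine ⟨((g : SL(2, ℤ) ⧸ Γ), i), ?_⟩
    symm
    rw [QuotientGroup.eq, ← mul_assoc]
    exact hi
  · rintro ⟨q, i⟩
    rw [hF.apply_out, mul_inv_rev, inv_inv]

end CosetSum

section Ribbon

variable (hneg : (-1 : SL(2, ℤ)) ∈ Γ)
include hneg

theorem neg_one_smul_coset (q : SL(2, ℤ) ⧸ Γ) : (-1 : SL(2, ℤ)) • q = q := by
  rw [← QuotientGroup.out_eq' q, MulAction.Quotient.smul_coe, QuotientGroup.eq]
  simpa using hneg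

theorem IsInv.neg {A : Type*} {F : SL(2, ℤ) → A} (hF : IsInv Γ F) (g : SL(2, ℤ)) :
    F (-g) = F g := by
  rw [← hF _ hneg g, neg_one_mul]

/-- The ribbon graph of `Γ`: oriented Farey edges modulo `Γ`. -/
def ribbon : Ribbon (SL(2, ℤ) ⧸ Γ) where
  σ := MulAction.toPerm S⁻¹
  ρ := MulAction.toPerm rot⁻¹
  σσ q := by
    show S⁻¹ • S⁻¹ • q = q
    rw [← mul_smul, show S⁻¹ * S⁻¹ = (-1 : SL(2, ℤ)) by decide]
    exact neg_one_smul_coset hneg q
  ρρρ q := by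
    show rot⁻¹ • rot⁻¹ • rot⁻¹ • q = q
    rw [← mul_smul, ← mul_smul, show rot⁻¹ * rot⁻¹ * rot⁻¹ = (-1 : SL(2, ℤ)) by decide]
    exact neg_one_smul_coset hneg q

omit hneg in
theorem ribbon_σ (hneg : (-1 : SL(2, ℤ)) ∈ Γ) (q : SL(2, ℤ) ⧸ Γ) :
    (ribbon hneg).σ q = S⁻¹ • q := rfl

omit hneg in
theorem ribbon_ρ (hneg : (-1 : SL(2, ℤ)) ∈ Γ) (q : SL(2, ℤ) ⧸ Γ) :
    (ribbon hneg).ρ q = rot⁻¹ • q := rfl

theorem ribbon_connected (P : SL(2, ℤ) ⧸ Γ → Prop) (hσ : ∀ q, P q → P ((ribbon hneg).σ q))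
    (hρ : ∀ q, P q → P ((ribbon hneg).ρ q)) (x : SL(2, ℤ) ⧸ Γ) (hx : P x)
    (y : SL(2, ℤ) ⧸ Γ) : P y := by
  have hSS : ∀ q, P q → P (S • q) := fun q hq => by
    have := hσ q hq
    rwa [ribbon_σ, show S⁻¹ = -S by decide, ← neg_one_mul, mul_smul,
      neg_one_smul_coset hneg] at this
  have hrr : ∀ q, P q → P (rot • q) := fun q hq => by
    have := hρ _ (hρ q hq)
    rwa [ribbon_ρ, ribbon_ρ, ← mul_smul, show rot⁻¹ * rot⁻¹ = -rot by decide, ← neg_one_mul,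
      mul_smul, neg_one_smul_coset hneg] at this
  have key : ∀ a ∈ Subgroup.closure ({S, T} : Set SL(2, ℤ)),
      ∀ q, (P q → P (a • q)) ∧ (P (a • q) → P q) := by
    intro a ha
    induction ha using Subgroup.closure_induction with
    | mem z hz =>
      intro q
      rcases hz with rfl | rfl
      · refine ⟨hSS q, fun h => ?_⟩
        have := hσ _ h
        rwa [ribbon_σ, inv_smul_smul] at this
      · constructor
        · intro h
          rw [← rot_mul_rot_mul_S, mul_smul, mul_smul]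
          exact hrr _ (hrr _ (hSS _ h))
        · intro h
          rw [← rot_mul_rot_mul_S, mul_smul, mul_smul] at h
          have h1 := hρ _ h
          rw [ribbon_ρ, inv_smul_smul] at h1
          have h2 := hρ _ h1
          rw [ribbon_ρ, inv_smul_smul] at h2
          have h3 := hσ _ h2
          rwa [ribbon_σ, inv_smul_smul] at h3
    | one => intro q; simp
    | mul a b _ _ ha hb =>
      intro q
      rw [mul_smul]
      exact ⟨fun h => (ha _).1 ((hb q).1 h), fun h => (hb q).2 ((ha _).2 h)⟩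
    | inv a _ ha =>
      intro q
      have h := ha (a⁻¹ • q)
      rw [smul_inv_smul] at h
      exact ⟨h.2, h.1⟩
  obtain ⟨a, rfl⟩ := MulAction.exists_smul_eq SL(2, ℤ) x y
  exact (key a (by rw [SpecialLinearGroup.SL2Z_generators]; exact Subgroup.mem_top a) x).1 hx

end Ribbon

section Tri

/-- The value of an edge `(g ∞, g 0)`. -/
def edge {A : Type*} [AddCommGroup A] (Φ : OnePoint ℚ → A) (g : SL(2, ℤ)) : A :=
  Φ (cuspAt (g * S)) - Φ (cuspAt g)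

theorem edge_mul_S {A : Type*} [AddCommGroup A] (Φ : OnePoint ℚ → A) (g : SL(2, ℤ)) :
    edge Φ (g * S) = -edge Φ g := by
  unfold edge
  rw [mul_assoc, show S * S = (-1 : SL(2, ℤ)) by decide, mul_neg_one, cuspAt_neg, neg_sub]

theorem edge_mul_rot {A : Type*} [AddCommGroup A] (Φ : OnePoint ℚ → A) (g : SL(2, ℤ)) :
    edge Φ (g * rot) = Φ (cuspAt (g * T * S)) - Φ (cuspAt (g * S)) := by
  unfold edge
  rw [cuspAt_mul_rot_S, cuspAt_mul_rot_rot, cuspAt_mul_rot]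

theorem edge_tri {A : Type*} [AddCommGroup A] (Φ : OnePoint ℚ → A) (g : SL(2, ℤ)) :
    edge Φ g + edge Φ (g * rot) + edge Φ (g * rot * rot) = 0 := by
  unfold edge
  rw [cuspAt_mul_rot_S g, cuspAt_mul_rot_S (g * rot), mul_assoc (g * rot) rot rot,
    show (g * rot) * (rot * rot) = g * (rot * rot * rot) by simp only [mul_assoc],
    rot_pow_three, mul_neg_one, cuspAt_neg, cuspAt_mul_rot g]
  abel

theorem IsPot.edge_isInv {A : Type*} [AddCommGroup A] {φ : Additive Γ →+ A} {Φ : OnePoint ℚ → A}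
    (hΦ : IsPot φ Φ) : IsInv Γ (edge Φ) := by
  intro γ hγ g
  unfold edge
  rw [mul_assoc, ← toGL_smul_cuspAt, ← toGL_smul_cuspAt γ g, hΦ ⟨γ, hγ⟩, hΦ ⟨γ, hγ⟩]
  abel

/-- The edge function on the ribbon graph attached to a potential. -/
noncomputable def edgeFun {A : Type*} [AddCommGroup A] (Φ : OnePoint ℚ → A)
    (q : SL(2, ℤ) ⧸ Γ) : A :=
  edge Φ (q.out)⁻¹

theorem IsPot.edgeFun_smul {A : Type*} [AddCommGroup A] {φ : Additive Γ →+ A}
    {Φ : OnePoint ℚ → A} (hΦ : IsPot φ Φ) (x : SL(2, ℤ)) (q : SL(2, ℤ) ⧸ Γ) :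
    edgeFun Φ (x⁻¹ • q) = edge Φ ((q.out)⁻¹ * x) :=
  hΦ.edge_isInv.apply_smul_out x q

theorem IsPot.isEdgeFun {A : Type*} [AddCommGroup A] (hneg : (-1 : SL(2, ℤ)) ∈ Γ)
    {φ : Additive Γ →+ A} {Φ : OnePoint ℚ → A} (hΦ : IsPot φ Φ) :
    (ribbon hneg).IsEdgeFun (edgeFun (Γ := Γ) Φ) where
  anti q := by rw [ribbon_σ, hΦ.edgeFun_smul, edge_mul_S]; rfl
  tri q := by
    rw [ribbon_ρ, ribbon_ρ, ← mul_smul, ← mul_inv_rev, hΦ.edgeFun_smul, hΦ.edgeFun_smul,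
      ← mul_assoc]
    exact edge_tri Φ _

variable {R : Type*} [CommRing R]

/-- Antisymmetrised cup product of two functions of cusps on a triangle. -/
def cup (Φ Ψ : OnePoint ℚ → R) (x y z : OnePoint ℚ) : R :=
  (Φ y - Φ x) * (Ψ z - Ψ y) - (Φ z - Φ y) * (Ψ y - Ψ x)

/-- A function of triangles evaluated on the Farey triangle of `g`. -/
def tri {A : Type*} (D : OnePoint ℚ → OnePoint ℚ → OnePoint ℚ → A) (g : SL(2, ℤ)) : A :=
  D (cuspAt g) (cuspAt (g * S)) (cuspAt (g * T * S))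

theorem tri_cup (Φ Ψ : OnePoint ℚ → R) (g : SL(2, ℤ)) :
    tri (cup Φ Ψ) g = edge Φ g * edge Ψ (g * rot) - edge Φ (g * rot) * edge Ψ g := by
  rw [edge_mul_rot, edge_mul_rot]
  rfl

/-- The sum of `D` over all Farey triangles with a marked vertex, modulo `Γ`. -/
noncomputable def triSum (Γ : Subgroup SL(2, ℤ)) [Γ.FiniteIndex] {A : Type*} [AddCommGroup A]
    (D : OnePoint ℚ → OnePoint ℚ → OnePoint ℚ → A) : A :=
  cosetSum Γ (tri D)

theorem triSum_cup_eq_cupSum [Γ.FiniteIndex] (hneg : (-1 : SL(2, ℤ)) ∈ Γ)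
    {φ ψ : Additive Γ →+ R} {Φ Ψ : OnePoint ℚ → R} (hΦ : IsPot φ Φ) (hΨ : IsPot ψ Ψ) :
    triSum Γ (cup Φ Ψ) = (ribbon hneg).cupSum (edgeFun (Γ := Γ) Φ) (edgeFun (Γ := Γ) Ψ) := by
  refine Finset.sum_congr rfl fun q _ => ?_
  rw [tri_cup, ribbon_ρ, hΦ.edgeFun_smul, hΨ.edgeFun_smul]
  rfl

end Tri

end Fermat.Agent.Duality
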