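/-
The fundamental class: sums of invariant cocycles over Farey triangles modulo `Γ` do not depend
on the tessellation, i.e. they are invariant under conjugation by `GL(2, ℚ)` of positive
determinant.
-/
import Fermat.Agent.Duality.Potential
import Mathlib.Data.Sign.Basic

set_option autoImplicit false

namespace Fermat.Agent.Duality

open scoped MatrixGroups
open ModularGroup

attribute [local instance] Subgroup.fintypeQuotientOfFiniteIndex

variable {A : Type*} [AddCommGroup A]

/-- An invariant two cocycle on the cusps. -/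
structure InvCocycle (Γ : Subgroup SL(2, ℤ))
    (D : OnePoint ℚ → OnePoint ℚ → OnePoint ℚ → A) : Prop where
  inv : ∀ γ ∈ Γ, ∀ x y z, D (toGL γ • x) (toGL γ • y) (toGL γ • z) = D x y z
  cocycle : ∀ x y z w, D y z w - D x z w + D x y w - D x y z = 0
  xxx : ∀ x, D x x x = 0
  xyx : ∀ x y, D x y x = 0

theorem InvCocycle.tri_isInv {Γ : Subgroup SL(2, ℤ)}
    {D : OnePoint ℚ → OnePoint ℚ → OnePoint ℚ → A} (hD : InvCocycle Γ D) : IsInv Γ (tri D) := by
  intro γ hγ g
  unfold tri
  rw [show cuspAt (γ * g) = toGL γ • cuspAt g from (toGL_smul_cuspAt γ g).symm,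
    show cuspAt (γ * g * S) = toGL γ • cuspAt (g * S) by rw [toGL_smul_cuspAt, mul_assoc],
    show cuspAt (γ * g * T * S) = toGL γ • cuspAt (g * T * S) by
      rw [toGL_smul_cuspAt, ← mul_assoc γ, ← mul_assoc γ],
    hD.inv γ hγ]

theorem InvCocycle.rotate {Γ : Subgroup SL(2, ℤ)}
    {D : OnePoint ℚ → OnePoint ℚ → OnePoint ℚ → A} (hD : InvCocycle Γ D) (x y z : OnePoint ℚ) :
    D y z x = D x y z := by
  have h := hD.cocycle x y z x
  rw [hD.xyx x z, hD.xyx x y, sub_zero, add_zero, sub_eq_zero] at h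
  exact h

theorem InvCocycle.tri_rot {Γ : Subgroup SL(2, ℤ)}
    {D : OnePoint ℚ → OnePoint ℚ → OnePoint ℚ → A} (hD : InvCocycle Γ D) (g : SL(2, ℤ)) :
    tri D (g * rot) = tri D g := by
  unfold tri
  have e3 : cuspAt (g * rot * T * S) = cuspAt g := by
    rw [mul_assoc (g * rot) T S, mul_assoc g rot (T * S),
      show rot * (T * S) = (1 : SL(2, ℤ)) by decide, mul_one]
  rw [e3, cuspAt_mul_rot_S, cuspAt_mul_rot_rot, cuspAt_mul_rot]
  exact hD.rotate _ _ _

theorem InvCocycle.sub {Γ : Subgroup SL(2, ℤ)}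
    {D E : OnePoint ℚ → OnePoint ℚ → OnePoint ℚ → A} (hD : InvCocycle Γ D) (hE : InvCocycle Γ E) :
    InvCocycle Γ (fun x y z => D x y z - E x y z) where
  inv γ hγ x y z := by simp only [hD.inv γ hγ, hE.inv γ hγ]
  cocycle x y z w := by
    have h1 := hD.cocycle x y z w
    have h2 := hE.cocycle x y z w
    calc _ = (D y z w - D x z w + D x y w - D x y z)
          - (E y z w - E x z w + E x y w - E x y z) := by abel
      _ = 0 := by rw [h1, h2, sub_zero]
  xxx x := by simp [hD.xxx x, hE.xxx x]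
  xyx x y := by simp [hD.xyx x y, hE.xyx x y]

theorem InvCocycle.smul {K : Type*} [Field K] {Γ : Subgroup SL(2, ℤ)}
    {D : OnePoint ℚ → OnePoint ℚ → OnePoint ℚ → K} (hD : InvCocycle Γ D) (c : K) :
    InvCocycle Γ (fun x y z => c * D x y z) where
  inv γ hγ x y z := by simp only [hD.inv γ hγ]
  cocycle x y z w := by
    have h1 := hD.cocycle x y z w
    linear_combination c * h1
  xxx x := by simp [hD.xxx x]
  xyx x y := by simp [hD.xyx x y]

/-- The coboundary of a function on pairs. -/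
def cobd (b : OnePoint ℚ → OnePoint ℚ → A) (x y z : OnePoint ℚ) : A := b y z - b x z + b x y

/-- An invariant antisymmetric function of pairs of cusps. -/
structure InvPair (Γ : Subgroup SL(2, ℤ)) (b : OnePoint ℚ → OnePoint ℚ → A) : Prop where
  inv : ∀ γ ∈ Γ, ∀ x y, b (toGL γ • x) (toGL γ • y) = b x y
  anti : ∀ x y, b y x = -b x y
  diag : ∀ x, b x x = 0

theorem InvPair.cobd_invCocycle {Γ : Subgroup SL(2, ℤ)} {b : OnePoint ℚ → OnePoint ℚ → A}
    (hb : InvPair Γ b) : InvCocycle Γ (cobd b) where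
  inv γ hγ x y z := by simp only [cobd, hb.inv γ hγ]
  cocycle x y z w := by simp only [cobd]; abel
  xxx x := by simp [cobd, hb.diag]
  xyx x y := by simp [cobd, hb.diag, hb.anti x y]

/-- The cocycle identity for the cup product. -/
theorem invCocycle_cup {R : Type*} [CommRing R] {Γ : Subgroup SL(2, ℤ)}
    {φ ψ : Additive Γ →+ R} {Φ Ψ : OnePoint ℚ → R} (hΦ : IsPot φ Φ) (hΨ : IsPot ψ Ψ) :
    InvCocycle Γ (cup Φ Ψ) where
  inv γ hγ x y z := by
    simp only [cup, hΦ ⟨γ, hγ⟩, hΨ ⟨γ, hγ⟩]
    ring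
  cocycle x y z w := by simp only [cup]; ring
  xxx x := by simp [cup]
  xyx x y := by simp [cup]; ring

section Orientation

/-- A homogeneous representative of a cusp. -/
def cuspVec : OnePoint ℚ → ℚ × ℚ
  | none => (1, 0)
  | some x => (x, 1)

/-- The determinant of two cusps. -/
def cuspDet (x y : OnePoint ℚ) : ℚ :=
  (cuspVec x).1 * (cuspVec y).2 - (cuspVec x).2 * (cuspVec y).1

/-- The sign of `cuspDet`. -/
def cuspSign (x y : OnePoint ℚ) : ℚ := ((SignType.sign (cuspDet x y) : SignType) : ℚ)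

/-- The orientation of a triangle of cusps. -/
def orient (x y z : OnePoint ℚ) : ℚ :=
  ((SignType.sign (cuspDet x y * cuspDet y z * cuspDet z x) : SignType) : ℚ)

theorem cuspVec_smul (g : GL (Fin 2) ℚ) (x : OnePoint ℚ) : ∃ c : ℚ, c ≠ 0 ∧
    g 0 0 * (cuspVec x).1 + g 0 1 * (cuspVec x).2 = c * (cuspVec (g • x)).1 ∧
    g 1 0 * (cuspVec x).1 + g 1 1 * (cuspVec x).2 = c * (cuspVec (g • x)).2 := by
  have hdet : g 0 0 * g 1 1 - g 0 1 * g 1 0 ≠ 0 := by
    have := g.det_ne_zero
    rwa [Matrix.det_fin_two] at this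
  cases x with
  | infty =>
    rw [OnePoint.smul_infty_eq_ite]
    by_cases h : g 1 0 = 0
    · rw [if_pos h]
      refine ⟨g 0 0, fun h0 => hdet (by rw [h0, h]; ring), ?_, ?_⟩
      · show g 0 0 * 1 + g 0 1 * 0 = g 0 0 * 1; ring
      · show g 1 0 * 1 + g 1 1 * 0 = g 0 0 * 0; rw [h]; ring
    · rw [if_neg h]
      refine ⟨g 1 0, h, ?_, ?_⟩
      · show g 0 0 * 1 + g 0 1 * 0 = g 1 0 * (g 0 0 / g 1 0); field_simp; ring
      · show g 1 0 * 1 + g 1 1 * 0 = g 1 0 * 1; ring
  | coe t =>
    rw [OnePoint.smul_some_eq_ite]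
    by_cases h : g 1 0 * t + g 1 1 = 0
    · rw [if_pos h]
      refine ⟨g 0 0 * t + g 0 1, fun h0 => hdet ?_, ?_, ?_⟩
      · linear_combination g 0 0 * h - g 1 0 * h0
      · show g 0 0 * t + g 0 1 * 1 = (g 0 0 * t + g 0 1) * 1; ring
      · show g 1 0 * t + g 1 1 * 1 = (g 0 0 * t + g 0 1) * 0; rw [mul_one, mul_zero]; exact h
    · rw [if_neg h]
      refine ⟨g 1 0 * t + g 1 1, h, ?_, ?_⟩
      · show g 0 0 * t + g 0 1 * 1 =
          (g 1 0 * t + g 1 1) * ((g 0 0 * t + g 0 1) / (g 1 0 * t + g 1 1))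
        rw [mul_div_cancel₀ _ h, mul_one]
      · show g 1 0 * t + g 1 1 * 1 = (g 1 0 * t + g 1 1) * 1; ring

theorem orient_smul (g : GL (Fin 2) ℚ) (hg : 0 < (g : Matrix (Fin 2) (Fin 2) ℚ).det)
    (x y z : OnePoint ℚ) : orient (g • x) (g • y) (g • z) = orient x y z := by
  obtain ⟨a, ha, ha1, ha2⟩ := cuspVec_smul g x
  obtain ⟨b, hb, hb1, hb2⟩ := cuspVec_smul g y
  obtain ⟨c, hc, hc1, hc2⟩ := cuspVec_smul g z
  set d := (g : Matrix (Fin 2) (Fin 2) ℚ).det with hd
  have hd' : d = g 0 0 * g 1 1 - g 0 1 * g 1 0 := Matrix.det_fin_two _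
  have key : ∀ (u v : OnePoint ℚ) (s t : ℚ),
      g 0 0 * (cuspVec u).1 + g 0 1 * (cuspVec u).2 = s * (cuspVec (g • u)).1 →
      g 1 0 * (cuspVec u).1 + g 1 1 * (cuspVec u).2 = s * (cuspVec (g • u)).2 →
      g 0 0 * (cuspVec v).1 + g 0 1 * (cuspVec v).2 = t * (cuspVec (g • v)).1 →
      g 1 0 * (cuspVec v).1 + g 1 1 * (cuspVec v).2 = t * (cuspVec (g • v)).2 →
      s * t * cuspDet (g • u) (g • v) = d * cuspDet u v := by
    intro u v s t h1 h2 h3 h4
    unfold cuspDet
    calc s * t * ((cuspVec (g • u)).1 * (cuspVec (g • v)).2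
          - (cuspVec (g • u)).2 * (cuspVec (g • v)).1)
        = (s * (cuspVec (g • u)).1) * (t * (cuspVec (g • v)).2)
          - (s * (cuspVec (g • u)).2) * (t * (cuspVec (g • v)).1) := by ring
      _ = _ := by rw [← h1, ← h2, ← h3, ← h4, hd']; ring
  have e1 := key x y a b ha1 ha2 hb1 hb2
  have e2 := key y z b c hb1 hb2 hc1 hc2
  have e3 := key z x c a hc1 hc2 ha1 ha2
  unfold orient
  have hprod : (a * b * c) ^ 2 *
      (cuspDet (g • x) (g • y) * cuspDet (g • y) (g • z) * cuspDet (g • z) (g • x)) =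
      d ^ 3 * (cuspDet x y * cuspDet y z * cuspDet z x) := by
    calc _ = (a * b * cuspDet (g • x) (g • y)) * (b * c * cuspDet (g • y) (g • z)) *
          (c * a * cuspDet (g • z) (g • x)) := by ring
      _ = _ := by rw [e1, e2, e3]; ring
  have hpos : 0 < (a * b * c) ^ 2 := by positivity
  have h := congrArg SignType.sign hprod
  rw [sign_mul ((a * b * c) ^ 2), sign_mul (d ^ 3), sign_pos hpos, sign_pos (pow_pos hg 3),
    one_mul, one_mul] at h
  rw [h]

theorem cuspDet_swap (x y : OnePoint ℚ) : cuspDet y x = -cuspDet x y := by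
  unfold cuspDet; ring

theorem cuspDet_coe_coe (s t : ℚ) : cuspDet (s : OnePoint ℚ) (t : OnePoint ℚ) = s - t := by
  show s * 1 - 1 * t = s - t; ring

/-- The signs of three numbers of total zero. -/
theorem sign_triple {a b c : ℚ} (h : a + b + c = 0) :
    ((SignType.sign (a * b * c) : SignType) : ℚ) =
      -(((SignType.sign a : SignType) : ℚ) + ((SignType.sign b : SignType) : ℚ)
        + ((SignType.sign c : SignType) : ℚ)) := by
  rw [sign_mul, sign_mul]
  rcases lt_trichotomy a 0 with ha | ha | ha <;> rcases lt_trichotomy b 0 with hb | hb | hb <;>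
    rcases lt_trichotomy c 0 with hc | hc | hc <;>
    first
      | (exfalso; linarith)
      | simp [sign_pos, sign_neg, sign_zero, ha, hb, hc]

theorem sign_sub_swap (a b : ℚ) :
    ((SignType.sign (a - b) : SignType) : ℚ) = -((SignType.sign (b - a) : SignType) : ℚ) := by
  rw [← neg_sub b a, Left.sign_neg]
  cases SignType.sign (b - a) <;> simp

theorem orient_eq (x y z : OnePoint ℚ) :
    orient x y z = -(cuspSign x y + cuspSign y z + cuspSign z x) := by
  unfold orient cuspSign
  cases x with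
  | infty => cases y with
    | infty => cases z with
      | infty => simp [cuspDet, cuspVec]
      | coe u => simp [cuspDet, cuspVec]
    | coe t => cases z with
      | infty => simp [cuspDet, cuspVec]
      | coe u =>
        rw [cuspDet_coe_coe]
        simp [cuspDet, cuspVec]
        exact sign_sub_swap _ _
  | coe s => cases y with
    | infty => cases z with
      | infty => simp [cuspDet, cuspVec]
      | coe u =>
        rw [cuspDet_coe_coe]
        simp [cuspDet, cuspVec]
        exact sign_sub_swap _ _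
    | coe t => cases z with
      | infty =>
        rw [cuspDet_coe_coe]
        simp [cuspDet, cuspVec]
        exact sign_sub_swap _ _
      | coe u =>
        simp only [cuspDet_coe_coe]
        exact sign_triple (by ring)

theorem invCocycle_orient (Γ : Subgroup SL(2, ℤ)) : InvCocycle Γ orient where
  inv γ _ x y z := orient_smul _ (by
    have : ((toGL γ : GL (Fin 2) ℚ) : Matrix (Fin 2) (Fin 2) ℚ).det = 1 := by
      rw [Matrix.det_fin_two]
      simp only [toGL_apply]
      exact_mod_cast det_eq γ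
    rw [this]; exact one_pos) x y z
  cocycle x y z w := by
    simp only [orient_eq]
    have anti : ∀ p q, cuspSign q p = -cuspSign p q := fun p q => by
      unfold cuspSign
      rw [cuspDet_swap, Left.sign_neg]
      simp
    linear_combination -(anti y w) + anti x z
  xxx x := by simp only [orient, cuspDet, mul_comm, sub_self, mul_zero, sign_zero]; rfl
  xyx x y := by
    have : cuspDet x x = 0 := by unfold cuspDet; ring
    simp [orient, this]

end Orientation

section Main

variable {K : Type*} [Field K] [CharZero K] {Γ : Subgroup SL(2, ℤ)}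

/-- An invariant pair function coming from an antisymmetric function of the edges modulo `Γ`. -/
noncomputable def pairOfEdge (b : SL(2, ℤ) → A) (x y : OnePoint ℚ) : A :=
  haveI := Classical.propDecidable
  if h : ∃ g, cuspAt g = x ∧ cuspAt (g * S) = y then b h.choose else 0

theorem pairOfEdge_edge (b : SL(2, ℤ) → A) (hneg : ∀ g, b (-g) = b g) (g : SL(2, ℤ)) :
    pairOfEdge b (cuspAt g) (cuspAt (g * S)) = b g := by
  unfold pairOfEdge
  have h : ∃ k, cuspAt k = cuspAt g ∧ cuspAt (k * S) = cuspAt (g * S) := ⟨g, rfl, rfl⟩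
  rw [dif_pos h]
  rcases eq_or_eq_neg_of_edge_eq h.choose_spec.1.symm h.choose_spec.2.symm with e | e
  · rw [e]
  · rw [e, hneg]

theorem invPair_pairOfEdge {b : SL(2, ℤ) → A} (hinv : IsInv Γ b) (hneg : ∀ g, b (-g) = b g)
    (hS : ∀ g, b (g * S) = -b g) : InvPair Γ (pairOfEdge b) := by
  have hSS : ∀ g : SL(2, ℤ), cuspAt (g * S * S) = cuspAt g := fun g => by
    rw [mul_assoc, show S * S = (-1 : SL(2, ℤ)) by decide, mul_neg_one, cuspAt_neg]
  refine ⟨fun γ hγ x y => ?_, fun x y => ?_, fun x => ?_⟩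
  · by_cases h : ∃ g, cuspAt g = x ∧ cuspAt (g * S) = y
    · obtain ⟨g, rfl, rfl⟩ := h
      rw [toGL_smul_cuspAt, toGL_smul_cuspAt, ← mul_assoc, pairOfEdge_edge b hneg,
        pairOfEdge_edge b hneg, hinv γ hγ]
    · unfold pairOfEdge
      rw [dif_neg h, dif_neg]
      rintro ⟨g, h1, h2⟩
      refine h ⟨γ⁻¹ * g, ?_, ?_⟩
      · rw [← toGL_smul_cuspAt, h1, map_inv, inv_smul_smul]
      · rw [mul_assoc, ← toGL_smul_cuspAt, h2, map_inv, inv_smul_smul]
  · by_cases h : ∃ g, cuspAt g = x ∧ cuspAt (g * S) = y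
    · obtain ⟨g, rfl, rfl⟩ := h
      rw [pairOfEdge_edge b hneg]
      conv_lhs => arg 3; rw [← hSS g]
      rw [pairOfEdge_edge b hneg, hS]
    · unfold pairOfEdge
      rw [dif_neg h, dif_neg, neg_zero]
      rintro ⟨g, h1, h2⟩
      exact h ⟨g * S, h2, by rw [hSS]; exact h1⟩
  · unfold pairOfEdge
    rw [dif_neg]
    rintro ⟨g, h1, h2⟩
    have hu := upper_of_cuspAt_eq (h1.trans h2.symm)
    rw [inv_mul_cancel_left] at hu
    simp [coe_S] at hu

/-- An invariant cocycle vanishing on the Farey triangles is an invariant coboundary. -/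
theorem exists_cobd_eq_of_tri_zero {D : OnePoint ℚ → OnePoint ℚ → OnePoint ℚ → A}
    (hD : InvCocycle Γ D) (h0 : ∀ g, tri D g = 0) : ∃ b, InvPair Γ b ∧ D = cobd b := by
  set o : OnePoint ℚ := OnePoint.infty
  set h : OnePoint ℚ → OnePoint ℚ → A := fun x y => D o x y with hh
  have hδ : ∀ x y z, cobd h x y z = D x y z := by
    intro x y z
    have e := hD.cocycle o x y z
    simp only [cobd, hh]
    rw [← sub_eq_zero, ← neg_eq_zero, ← e]
    abel
  have hdiag : ∀ x, h x x = 0 := fun x => by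
    have e := hδ x x x
    rw [hD.xxx] at e
    simpa [cobd] using e
  have hanti : ∀ x y, h y x = -h x y := fun x y => by
    have e := hδ x y x
    rw [hD.xyx, cobd, hdiag, sub_zero] at e
    exact eq_neg_of_add_eq_zero_left e
  obtain ⟨f, hf⟩ := exists_primitive (e := fun g : SL(2, ℤ) => h (cuspAt g) (cuspAt (g * S)))
    (fun g => by simp only [neg_mul, cuspAt_neg])
    (fun g => by
      show h (cuspAt (g * S)) (cuspAt (g * S * S)) = -h (cuspAt g) (cuspAt (g * S))
      rw [mul_assoc g S S, show S * S = (-1 : SL(2, ℤ)) by decide, mul_neg_one, cuspAt_neg,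
        hanti])
    (fun g => by
      have hz := h0 g
      unfold tri at hz
      rw [← hδ, cobd] at hz
      show h (cuspAt g) (cuspAt (g * S)) + h (cuspAt (g * rot)) (cuspAt (g * rot * S)) +
        h (cuspAt (g * rot * rot)) (cuspAt (g * rot * rot * S)) = 0
      have e1 : cuspAt (g * rot * rot * S) = cuspAt g := by
        rw [mul_assoc (g * rot) rot S, mul_assoc g rot (rot * S),
          show rot * (rot * S) = T by decide, cuspAt_mul_T]
      rw [e1, cuspAt_mul_rot_S, cuspAt_mul_rot_rot, cuspAt_mul_rot, hanti (cuspAt g)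
        (cuspAt (g * T * S)), ← hz]
      abel)
  set b : OnePoint ℚ → OnePoint ℚ → A := fun x y => h x y - (f y - f x) with hb
  have hbδ : ∀ x y z, cobd b x y z = D x y z := fun x y z => by
    rw [← hδ]; simp only [cobd, hb]; abel
  have hbd : ∀ x, b x x = 0 := fun x => by simp [hb, hdiag]
  have hba : ∀ x y, b y x = -b x y := fun x y => by
    simp only [hb]; rw [hanti x y]; abel
  have hbe : ∀ g, b (cuspAt g) (cuspAt (g * S)) = 0 := fun g => by
    simp only [hb]; rw [hf, sub_self]
  refine ⟨b, ⟨fun γ hγ x y => ?_, hba, hbd⟩, funext fun x => funext fun y => funext fun z =>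
    (hbδ x y z).symm⟩
  set l : OnePoint ℚ → OnePoint ℚ → A :=
    fun u v => b (toGL γ • u) (toGL γ • v) - b u v with hl
  have hlδ : ∀ u v w, cobd l u v w = 0 := fun u v w => by
    have e : cobd l u v w =
        cobd b (toGL γ • u) (toGL γ • v) (toGL γ • w) - cobd b u v w := by
      simp only [cobd, hl]; abel
    rw [e, hbδ, hbδ, hD.inv γ hγ, sub_self]
  have hle : ∀ g, l (cuspAt g) (cuspAt (g * S)) = 0 := fun g => by
    simp only [hl]
    rw [toGL_smul_cuspAt, toGL_smul_cuspAt, ← mul_assoc, hbe, hbe, sub_zero]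
  have hconst := eq_of_edge_const (fun u => l o u) (fun g => by
    have e := hlδ o (cuspAt g) (cuspAt (g * S))
    rw [cobd, hle, zero_sub, neg_add_eq_zero] at e
    exact e) x y
  have e := hlδ o x y
  change l o x = l o y at hconst
  rw [cobd, hconst, sub_add_cancel] at e
  exact sub_eq_zero.mp e

variable [Γ.FiniteIndex]

/-- Decomposition of an invariant cocycle: a multiple of the orientation plus a coboundary. -/
theorem exists_decomp (hneg : (-1 : SL(2, ℤ)) ∈ Γ)
    {D : OnePoint ℚ → OnePoint ℚ → OnePoint ℚ → K} (hD : InvCocycle Γ D) :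
    ∃ (c : K) (b : OnePoint ℚ → OnePoint ℚ → K), InvPair Γ b ∧
      ∀ x y z, D x y z = c * (algebraMap ℚ K (orient x y z)) + cobd b x y z := by
  classical
  have htri : ∀ g : SL(2, ℤ), tri orient g = 1 := by
    intro g
    unfold tri
    have e : ∀ k, cuspAt (g * k) = toGL g • cuspAt k := fun k => (toGL_smul_cuspAt g k).symm
    rw [mul_assoc g T S, show cuspAt g = toGL g • cuspAt (1 : SL(2, ℤ)) by
      rw [toGL_smul_cuspAt, mul_one], e, e, orient_smul _ (by
        rw [Matrix.det_fin_two]; simp only [toGL_apply]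
        rw [show ((g 0 0 : ℤ) : ℚ) * ((g 1 1 : ℤ) : ℚ) - ((g 0 1 : ℤ) : ℚ) * ((g 1 0 : ℤ) : ℚ)
          = 1 by exact_mod_cast det_eq g]
        exact one_pos)]
    simp [orient, cuspDet, cuspAt_eq_ite, cuspVec, coe_S, coe_T]
  let E : OnePoint ℚ → OnePoint ℚ → OnePoint ℚ → K :=
    fun x y z => algebraMap ℚ K (orient x y z)
  have hE : InvCocycle Γ E := by
    have ho := invCocycle_orient Γ
    refine ⟨fun γ hγ x y z => by simp only [E, ho.inv γ hγ], fun x y z w => ?_,
      fun x => by simp only [E, ho.xxx x, map_zero], fun x y => by simp only [E, ho.xyx x y, map_zero]⟩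
    simp only [E]
    rw [← map_sub, ← map_add, ← map_sub, ho.cocycle x y z w, map_zero]
  set n : K := (Fintype.card (SL(2, ℤ) ⧸ Γ) : K) with hn
  have : Nonempty (SL(2, ℤ) ⧸ Γ) := ⟨((1 : SL(2, ℤ)) : SL(2, ℤ) ⧸ Γ)⟩
  have hn0 : n ≠ 0 := by
    rw [hn, Nat.cast_ne_zero]
    exact Fintype.card_ne_zero
  set c : K := triSum Γ D / n with hc
  set D1 : OnePoint ℚ → OnePoint ℚ → OnePoint ℚ → K := fun x y z => D x y z - c * E x y z
  have hD1 : InvCocycle Γ D1 := hD.sub (hE.smul c)
  set f : SL(2, ℤ) ⧸ Γ → K := fun q => tri D1 (q.out)⁻¹ with hfdef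
  have hfr : ∀ q, f ((ribbon hneg).ρ q) = f q := fun q => by
    simp only [hfdef, ribbon_ρ]
    rw [hD1.tri_isInv.apply_smul_out, hD1.tri_rot]
  have hf0 : ∑ q, f q = 0 := by
    have e : ∀ g, tri D1 g = tri D g - c := fun g => by
      show tri D g - c * algebraMap ℚ K (tri orient g) = _
      rw [htri, map_one, mul_one]
    simp only [hfdef, e, Finset.sum_sub_distrib, Finset.sum_const, Finset.card_univ,
      nsmul_eq_mul]
    rw [← hn, hc, mul_div_cancel₀ _ hn0]
    exact sub_self _
  obtain ⟨bq, hbσ, hbρ⟩ := (ribbon hneg).exists_tri_eq (ribbon_connected hneg) f hfr hf0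
  set bg : SL(2, ℤ) → K := fun g => bq ((g⁻¹ : SL(2, ℤ)) : SL(2, ℤ) ⧸ Γ) with hbg
  have bginv : IsInv Γ bg := fun γ hγ g => by
    simp only [hbg]; congr 1
    rw [QuotientGroup.eq]; simpa using hγ
  have bgneg : ∀ g, bg (-g) = bg g := fun g => bginv.neg hneg g
  have bgS : ∀ g, bg (g * S) = -bg g := fun g => by
    simp only [hbg]
    rw [← hbσ, ribbon_σ, MulAction.Quotient.smul_coe, smul_eq_mul, mul_inv_rev]
  have hP := invPair_pairOfEdge bginv bgneg bgS
  obtain ⟨b2, hb2, hD2⟩ := exists_cobd_eq_of_tri_zero (hD1.sub hP.cobd_invCocycle) (fun g => by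
    show tri D1 g - cobd (pairOfEdge bg) _ _ _ = 0
    rw [cobd]
    have e1 : cuspAt (g * rot * rot * S) = cuspAt g := by
      rw [mul_assoc (g * rot) rot S, mul_assoc g rot (rot * S),
        show rot * (rot * S) = T by decide, cuspAt_mul_T]
    have p1 := pairOfEdge_edge bg bgneg g
    have p2 := pairOfEdge_edge bg bgneg (g * rot)
    have p3 := pairOfEdge_edge bg bgneg (g * rot * rot)
    rw [cuspAt_mul_rot_S, cuspAt_mul_rot_rot, cuspAt_mul_rot] at p2
    rw [e1, cuspAt_mul_rot_rot, hP.anti] at p3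
    rw [p1, p2]
    have hq := hbρ ((g⁻¹ : SL(2, ℤ)) : SL(2, ℤ) ⧸ Γ)
    simp only [hfdef, ribbon_ρ, MulAction.Quotient.smul_coe, smul_eq_mul, ← mul_inv_rev,
      hD1.tri_isInv.apply_out, inv_inv] at hq
    rw [← hq]
    simp only [hbg] at p3 ⊢
    linear_combination -p3)
  refine ⟨c, fun x y => pairOfEdge bg x y + b2 x y,
    ⟨fun γ hγ x y => by simp only [hP.inv γ hγ, hb2.inv γ hγ],
     fun x y => by simp only [hP.anti x y, hb2.anti x y]; ring,
     fun x => by simp only [hP.diag x, hb2.diag x, add_zero]⟩, fun x y z => ?_⟩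
  have := congrFun (congrFun (congrFun hD2 x) y) z
  simp only [D1, cobd, E] at this ⊢
  linear_combination this

/-- **Invariance of the fundamental class.** -/
theorem triSum_conj (hneg : (-1 : SL(2, ℤ)) ∈ Γ) {Γ' : Subgroup SL(2, ℤ)} [Γ'.FiniteIndex]
    (hneg' : (-1 : SL(2, ℤ)) ∈ Γ') {α : GL (Fin 2) ℚ}
    (hα : 0 < (α : Matrix (Fin 2) (Fin 2) ℚ).det)
    (hconj : ∀ γ ∈ Γ', ∃ δ ∈ Γ, α * toGL γ = toGL δ * α) (hidx : Γ'.index = Γ.index)
    {D : OnePoint ℚ → OnePoint ℚ → OnePoint ℚ → K} (hD : InvCocycle Γ D) :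
    triSum Γ' (fun x y z => D (α • x) (α • y) (α • z)) = triSum Γ D := by
  obtain ⟨c, b, hb, hdec⟩ := exists_decomp hneg hD
  have hor : ∀ g : SL(2, ℤ), orient (cuspAt g) (cuspAt (g * S)) (cuspAt (g * T * S)) = 1 := by
    intro g
    have e : ∀ k, cuspAt (g * k) = toGL g • cuspAt k := fun k => (toGL_smul_cuspAt g k).symm
    rw [mul_assoc g T S, show cuspAt g = toGL g • cuspAt (1 : SL(2, ℤ)) by
      rw [toGL_smul_cuspAt, mul_one], e, e, orient_smul _ (by
        rw [Matrix.det_fin_two]; simp only [toGL_apply]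
        rw [show ((g 0 0 : ℤ) : ℚ) * ((g 1 1 : ℤ) : ℚ) - ((g 0 1 : ℤ) : ℚ) * ((g 1 0 : ℤ) : ℚ)
          = 1 by exact_mod_cast det_eq g]
        exact one_pos)]
    simp [orient, cuspDet, cuspAt_eq_ite, cuspVec, coe_S, coe_T]
  -- a coboundary of an invariant pair function sums to zero over triangles
  have key : ∀ (H : Subgroup SL(2, ℤ)) [H.FiniteIndex], (-1 : SL(2, ℤ)) ∈ H →
      ∀ p : OnePoint ℚ → OnePoint ℚ → K, InvPair H p → triSum H (cobd p) = 0 := by
    intro H _ _ p hp
    set e : SL(2, ℤ) → K := fun g => p (cuspAt g) (cuspAt (g * S)) with he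
    have einv : IsInv H e := fun γ hγ g => by
      simp only [he]
      rw [mul_assoc, ← toGL_smul_cuspAt γ (g * S), ← toGL_smul_cuspAt γ g, hp.inv γ hγ]
    have eS : ∀ g, e (g * S) = -e g := fun g => by
      simp only [he]
      rw [mul_assoc g S S, show S * S = (-1 : SL(2, ℤ)) by decide, mul_neg_one, cuspAt_neg,
        hp.anti]
    have hesum : cosetSum H e = 0 := by
      have h1 := cosetSum_mul_right einv S
      rw [cosetSum_congr eS] at h1
      unfold cosetSum at h1 ⊢
      rw [Finset.sum_neg_distrib] at h1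
      linear_combination (-1 / 2 : K) * h1
    have htr : ∀ g, tri (cobd p) g = e g + e (g * rot) + e (g * rot * rot) := fun g => by
      have e1 : cuspAt (g * rot * rot * S) = cuspAt g := by
        rw [mul_assoc (g * rot) rot S, mul_assoc g rot (rot * S),
          show rot * (rot * S) = T by decide, cuspAt_mul_T]
      simp only [he, tri, cobd]
      rw [e1, cuspAt_mul_rot_S, cuspAt_mul_rot_rot, cuspAt_mul_rot,
        hp.anti (cuspAt g) (cuspAt (g * T * S))]
      ring
    unfold triSum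
    rw [cosetSum_congr htr, cosetSum_add, cosetSum_add]
    have h2 := cosetSum_mul_right einv rot
    have h3 := cosetSum_mul_right einv (rot * rot)
    simp only [← mul_assoc] at h3
    rw [h2, h3, hesum]
    simp
  have hb' : InvPair Γ' (fun x y => b (α • x) (α • y)) := by
    refine ⟨fun γ hγ x y => ?_, fun x y => hb.anti _ _, fun x => hb.diag _⟩
    obtain ⟨δ, hδ, he⟩ := hconj γ hγ
    show b (α • toGL γ • x) (α • toGL γ • y) = _
    rw [← mul_smul, ← mul_smul, he, mul_smul, mul_smul, hb.inv δ hδ]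
  have L : ∀ (H : Subgroup SL(2, ℤ)) [H.FiniteIndex], (-1 : SL(2, ℤ)) ∈ H →
      ∀ p : OnePoint ℚ → OnePoint ℚ → K, InvPair H p →
      triSum H (fun x y z => c * algebraMap ℚ K (orient x y z) + cobd p x y z) =
        (H.index : K) * c := by
    intro H _ hn p hp
    have e := key H hn p hp
    unfold triSum cosetSum tri at e ⊢
    simp only [Finset.sum_add_distrib, e, hor, map_one, mul_one, Finset.sum_const,
      Finset.card_univ, nsmul_eq_mul, add_zero]
    rw [Subgroup.index, Nat.card_eq_fintype_card]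
  have e1 : (fun x y z => D (α • x) (α • y) (α • z)) =
      fun x y z => c * algebraMap ℚ K (orient x y z) + cobd (fun x y => b (α • x) (α • y)) x y z :=
    funext fun x => funext fun y => funext fun z => by
      rw [hdec, orient_smul α hα]; rfl
  rw [e1, L Γ' hneg' _ hb', hidx, show D = fun x y z => _ from
    funext fun x => funext fun y => funext fun z => hdec x y z, L Γ hneg _ hb]

end Main

end Fermat.Agent.Duality
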