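/-
The intersection pairing on parabolic-elliptic homomorphisms of a finite index subgroup of
SL(2, ℤ), and its perfectness when 2 is invertible.
-/
import Fermat.Agent.Duality.Invariance
import Fermat.Agent.HeckeCohom.Transfer
import Fermat.Agent.ParHom.Free

set_option autoImplicit false

namespace Fermat.Agent.Duality

open scoped MatrixGroups
open ModularGroup ModularCurve.Period Fermat.Agent.ParHom

attribute [local instance] Subgroup.fintypeQuotientOfFiniteIndex

variable {Γ : Subgroup SL(2, ℤ)} [Γ.FiniteIndex]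

/-- The unnormalised pairing: the sum over corners of Farey triangles of the cup product. -/
noncomputable def rawPairing {R : Type*} [CommRing R] (φ ψ : Additive Γ →+ R) : R :=
  triSum Γ (cup (pot φ) (pot ψ))

theorem triSum_cup_congr (hneg : (-1 : SL(2, ℤ)) ∈ Γ) {R : Type*} [CommRing R]
    {φ ψ : Additive Γ →+ R} {Φ Φ' Ψ Ψ' : OnePoint ℚ → R} (hΦ : IsPot φ Φ) (hΦ' : IsPot φ Φ')
    (hΨ : IsPot ψ Ψ) (hΨ' : IsPot ψ Ψ') : triSum Γ (cup Φ Ψ) = triSum Γ (cup Φ' Ψ') := by
  -- changing the first potential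
  have key : ∀ {φ ψ : Additive Γ →+ R} {Φ Φ' Ψ : OnePoint ℚ → R}, IsPot φ Φ → IsPot φ Φ' →
      IsPot ψ Ψ → triSum Γ (cup Φ Ψ) = triSum Γ (cup Φ' Ψ) := by
    intro φ ψ Φ Φ' Ψ h h' hψ
    rw [← sub_eq_zero, triSum_cup_eq_cupSum hneg h hψ, triSum_cup_eq_cupSum hneg h' hψ]
    have hinv : IsInv Γ fun g => Φ' (cuspAt g) - Φ (cuspAt g) := fun γ hγ g => by
      simp only [← toGL_smul_cuspAt, h' ⟨γ, hγ⟩, h ⟨γ, hγ⟩]
      abel
    set k : SL(2, ℤ) ⧸ Γ → R :=
      fun q => Φ' (cuspAt (q.out)⁻¹) - Φ (cuspAt (q.out)⁻¹) with hk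
    have hτ : ∀ q, k ((ribbon hneg).τ q) = k q := fun q => by
      simp only [hk, Ribbon.τ_apply, ribbon_σ, ribbon_ρ, ← mul_smul, ← mul_inv_rev]
      rw [hinv.apply_smul_out, rot_mul_rot_mul_S, cuspAt_mul_T]
    rw [← Ribbon.cupSum_coboundary hτ (hψ.isEdgeFun hneg)]
    simp only [Ribbon.cupSum, ← Finset.sum_sub_distrib]
    refine Finset.sum_congr rfl fun q _ => ?_
    have e : ∀ p, edgeFun Φ p - edgeFun Φ' p = k p - k ((ribbon hneg).σ p) := fun p => by
      simp only [hk, edgeFun, edge, ribbon_σ]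
      rw [hinv.apply_smul_out]
      abel
    simp only [← e]
    ring
  have swap : ∀ A B : OnePoint ℚ → R, triSum Γ (cup A B) = -triSum Γ (cup B A) := by
    intro A B
    unfold triSum cosetSum tri
    rw [← Finset.sum_neg_distrib]
    exact Finset.sum_congr rfl fun q _ => by unfold cup; ring
  rw [key hΦ hΦ' hΨ, swap, key hΨ hΨ' hΦ', ← swap]

variable {R : Type*} [CommRing R]

theorem rawPairing_eq (hneg : (-1 : SL(2, ℤ)) ∈ Γ) {φ ψ : Additive Γ →+ R}
    {Φ Ψ : OnePoint ℚ → R} (hΦ : IsPot φ Φ) (hΨ : IsPot ψ Ψ) :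
    rawPairing φ ψ = triSum Γ (cup Φ Ψ) :=
  triSum_cup_congr hneg (isPot_pot hΦ.isParabolicHom) hΦ (isPot_pot hΨ.isParabolicHom) hΨ

theorem rawPairing_self (φ : Additive Γ →+ R) : rawPairing φ φ = 0 := by
  unfold rawPairing triSum cosetSum tri
  exact Finset.sum_eq_zero fun q _ => by unfold cup; ring

theorem rawPairing_swap (φ ψ : Additive Γ →+ R) : rawPairing ψ φ = -rawPairing φ ψ := by
  unfold rawPairing triSum cosetSum tri
  rw [← Finset.sum_neg_distrib]
  exact Finset.sum_congr rfl fun q _ => by unfold cup; ring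

theorem rawPairing_add_left (hneg : (-1 : SL(2, ℤ)) ∈ Γ) {φ φ' ψ : Additive Γ →+ R}
    (h : IsParabolicHom Γ φ) (h' : IsParabolicHom Γ φ') (hψ : IsParabolicHom Γ ψ) :
    rawPairing (φ + φ') ψ = rawPairing φ ψ + rawPairing φ' ψ := by
  rw [rawPairing_eq hneg ((isPot_pot h).add (isPot_pot h')) (isPot_pot hψ)]
  unfold rawPairing triSum cosetSum tri
  rw [← Finset.sum_add_distrib]
  exact Finset.sum_congr rfl fun q _ => by simp only [cup, Pi.add_apply]; ring

theorem rawPairing_smul_left (hneg : (-1 : SL(2, ℤ)) ∈ Γ) (c : R) {φ ψ : Additive Γ →+ R}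
    (h : IsParabolicHom Γ φ) (hψ : IsParabolicHom Γ ψ) :
    rawPairing (c • φ) ψ = c * rawPairing φ ψ := by
  rw [rawPairing_eq hneg ((isPot_pot h).smul c) (isPot_pot hψ)]
  unfold rawPairing triSum cosetSum tri
  rw [Finset.mul_sum]
  exact Finset.sum_congr rfl fun q _ => by simp only [cup, Pi.smul_apply, smul_eq_mul]; ring

theorem rawPairing_map (hneg : (-1 : SL(2, ℤ)) ∈ Γ) {S : Type*} [CommRing S] (f : R →+* S)
    {φ ψ : Additive Γ →+ R} (h : IsParabolicHom Γ φ) (hψ : IsParabolicHom Γ ψ) :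
    rawPairing (f.toAddMonoidHom.comp φ) (f.toAddMonoidHom.comp ψ) = f (rawPairing φ ψ) := by
  rw [rawPairing_eq hneg ((isPot_pot h).map _) ((isPot_pot hψ).map _)]
  unfold rawPairing triSum cosetSum tri
  rw [map_sum]
  exact Finset.sum_congr rfl fun q _ => by simp [cup]

/-- The sum over corners is divisible by three for integral classes. -/
theorem three_dvd_rawPairing (hneg : (-1 : SL(2, ℤ)) ∈ Γ) {φ ψ : Additive Γ →+ ℤ}
    (hφ : IsParabolicHom Γ φ) (hψ : IsParabolicHom Γ ψ) : (3 : ℤ) ∣ rawPairing φ ψ := by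
  rw [show rawPairing φ ψ = _ from triSum_cup_eq_cupSum hneg (isPot_pot hφ) (isPot_pot hψ)]
  set u := edgeFun (Γ := Γ) (pot φ)
  set v := edgeFun (Γ := Γ) (pot ψ)
  set G := ribbon hneg
  have hu : G.IsEdgeFun u := (isPot_pot hφ).isEdgeFun hneg
  have hv : G.IsEdgeFun v := (isPot_pot hψ).isEdgeFun hneg
  set f : SL(2, ℤ) ⧸ Γ → ℤ := fun q => u q * v (G.ρ q) - u (G.ρ q) * v q with hf
  have hinv : ∀ q, f (G.ρ q) = f q := fun q => by
    simp only [hf]
    linear_combination u (G.ρ q) * hv.tri q - v (G.ρ q) * hu.tri q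
  have hfix : ∀ q, G.ρ q = q → f q = 0 := fun q hq => by simp [hf, hq, mul_comm]
  rw [show (3 : ℤ) = ((3 : ℕ) : ℤ) from rfl, ← ZMod.intCast_zmod_eq_zero_iff_dvd]
  simp only [Ribbon.cupSum, Int.cast_sum]
  refine HeckeCohom.sum_eq_zero_of_periodic G.ρ _ fun i n hn => ?_
  have hconst : ∀ k, f ((⇑G.ρ)^[k] i) = f i := by
    intro k
    induction k with
    | zero => rfl
    | succ k ih => rw [Function.iterate_succ_apply', hinv, ih]
  rw [show (∑ k ∈ Finset.range n, ((f ((⇑G.ρ)^[k] i) : ℤ) : ZMod 3)) = (n : ZMod 3) * (f i : ℤ) by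
    simp [hconst, Finset.sum_const, Finset.card_range]]
  by_cases h3 : (3 : ℕ) ∣ n
  · rw [(ZMod.natCast_eq_zero_iff _ _).mpr h3, zero_mul]
  · suffices hq : G.ρ i = i by rw [hfix i hq]; simp
    have hper : ∀ m, (⇑G.ρ)^[3 * m] i = i := by
      intro m
      induction m with
      | zero => rfl
      | succ m ih =>
        rw [show 3 * (m + 1) = 3 + 3 * m by ring, Function.iterate_add_apply, ih]
        simp [G.ρρρ]
    have hmod : (⇑G.ρ)^[n % 3] i = i := by
      conv_rhs => rw [← hn]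
      rw [show n = n % 3 + 3 * (n / 3) by omega, Function.iterate_add_apply, hper]
      congr 2
      omega
    rcases (show n % 3 = 1 ∨ n % 3 = 2 by omega) with h | h <;> rw [h] at hmod
    · exact hmod
    · have := congrArg G.ρ hmod
      simp [G.ρρρ] at this
      exact this.symm

/-- Every element is represented by an integral chain of edges. -/
theorem exists_chain (g h : SL(2, ℤ)) : ∃ z : SL(2, ℤ) ⧸ Γ → ℤ, ∀ F : SL(2, ℤ) → ℤ,
    IsInv Γ (fun x => F (x * S) - F x) → (∀ x, F (x * T) = F x) →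
      ∑ q, z q * (F ((q.out)⁻¹ * S) - F (q.out)⁻¹) = F (h * g) - F h := by
  classical
  revert h
  have hg : g ∈ Subgroup.closure ({S, T} : Set SL(2, ℤ)) := by
    rw [SpecialLinearGroup.SL2Z_generators]; exact Subgroup.mem_top g
  induction hg using Subgroup.closure_induction with
  | mem x hx =>
    intro h
    rcases hx with rfl | rfl
    · refine ⟨Pi.single ((h⁻¹ : SL(2, ℤ)) : SL(2, ℤ) ⧸ Γ) 1, fun F hF _ => ?_⟩
      rw [Finset.sum_eq_single ((h⁻¹ : SL(2, ℤ)) : SL(2, ℤ) ⧸ Γ)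
        (fun q _ hq => by simp [hq]) (by simp)]
      rw [Pi.single_eq_same, one_mul, hF.apply_out, inv_inv]
    · exact ⟨0, fun F _ hT => by simp [hT]⟩
  | one => exact fun h => ⟨0, fun F _ _ => by simp⟩
  | mul a b _ _ ha hb =>
    intro h
    obtain ⟨z, hz⟩ := ha h
    obtain ⟨w, hw⟩ := hb (h * a)
    refine ⟨z + w, fun F hF hT => ?_⟩
    simp only [Pi.add_apply, add_mul, Finset.sum_add_distrib, hz F hF hT, hw F hF hT, mul_assoc]
    abel
  | inv a _ ha =>
    intro h
    obtain ⟨z, hz⟩ := ha (h * a⁻¹)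
    refine ⟨-z, fun F hF hT => ?_⟩
    simp only [Pi.neg_apply, neg_mul, Finset.sum_neg_distrib, hz F hF hT]
    simp

omit [Γ.FiniteIndex] in
/-- An edge function on the ribbon graph comes from a parabolic homomorphism. -/
theorem exists_hom_of_isEdgeFun {A : Type*} [AddCommGroup A] (hneg : (-1 : SL(2, ℤ)) ∈ Γ)
    {u : SL(2, ℤ) ⧸ Γ → A} (hu : (ribbon hneg).IsEdgeFun u) :
    ∃ (φ : Additive Γ →+ A) (Φ : OnePoint ℚ → A), IsPot φ Φ ∧ ∀ q, edgeFun Φ q = u q := by
  set e : SL(2, ℤ) → A := fun g => u ((g⁻¹ : SL(2, ℤ)) : SL(2, ℤ) ⧸ Γ) with he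
  have einv : IsInv Γ e := fun γ hγ g => by
    simp only [he]; congr 1
    rw [QuotientGroup.eq]; simpa using hγ
  have hact : ∀ g x : SL(2, ℤ), e (g * x) = u (x⁻¹ • ((g⁻¹ : SL(2, ℤ)) : SL(2, ℤ) ⧸ Γ)) := by
    intro g x
    simp only [he, MulAction.Quotient.smul_coe, smul_eq_mul, mul_inv_rev]
  obtain ⟨f, hf⟩ := exists_primitive (e := e) (fun g => einv.neg hneg g)
    (fun g => by rw [hact, ← ribbon_σ hneg, hu.anti])
    (fun g => by
      rw [mul_assoc g rot rot, hact, hact, mul_inv_rev, mul_smul, ← ribbon_ρ hneg,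
        ← ribbon_ρ hneg]
      exact hu.tri _)
  have hc : ∀ (γ : Γ) (x : OnePoint ℚ), f (toGL (γ : SL(2, ℤ)) • x) - f x =
      f (toGL (γ : SL(2, ℤ)) • (OnePoint.infty : OnePoint ℚ)) - f OnePoint.infty := by
    intro γ x
    refine eq_of_edge_const (fun y => f (toGL (γ : SL(2, ℤ)) • y) - f y) (fun g => ?_) x _
    rw [toGL_smul_cuspAt, toGL_smul_cuspAt, ← mul_assoc]
    have h1 := hf ((γ : SL(2, ℤ)) * g)
    have h2 := hf g
    rw [einv _ γ.2] at h1
    rw [sub_eq_sub_iff_sub_eq_sub, h1, h2]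
  refine ⟨AddMonoidHom.mk' (fun γ =>
      f (toGL ((Additive.toMul γ : Γ) : SL(2, ℤ)) • (OnePoint.infty : OnePoint ℚ))
        - f OnePoint.infty) ?_, f, ?_, ?_⟩
  · intro γ δ
    simp only [toMul_add, Subgroup.coe_mul, map_mul, mul_smul]
    rw [← hc (Additive.toMul γ) (toGL ((Additive.toMul δ : Γ) : SL(2, ℤ)) • OnePoint.infty)]
    abel
  · intro γ x
    rw [← sub_eq_iff_eq_add, hc]
    rfl
  · intro q
    show f (cuspAt ((q.out)⁻¹ * S)) - f (cuspAt (q.out)⁻¹) = u q
    rw [hf]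
    show u (((q.out)⁻¹)⁻¹ : SL(2, ℤ)) = u q
    rw [inv_inv, QuotientGroup.out_eq']

/-- **Poincaré duality**: every element of `Γ` has an integral dual class. -/
theorem exists_dual_class (hneg : (-1 : SL(2, ℤ)) ∈ Γ) (γ : Γ) :
    ∃ d : Additive Γ →+ ℤ, IsParEllHom Γ d ∧ ∀ ψ : Additive Γ →+ ℤ, IsParEllHom Γ ψ →
      rawPairing d ψ = 12 * ψ (Additive.ofMul γ) := by
  obtain ⟨z, hz⟩ := exists_chain (Γ := Γ) (γ : SL(2, ℤ)) 1
  obtain ⟨u, hu, hdual⟩ := (ribbon hneg).exists_dual z (fun h hh => by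
    set F : SL(2, ℤ) → ℤ := fun x => h ((x⁻¹ : SL(2, ℤ)) : SL(2, ℤ) ⧸ Γ) with hF
    have hFinv : IsInv Γ F := fun δ hδ x => by
      simp only [hF]; congr 1
      rw [QuotientGroup.eq]; simpa using hδ
    have hFT : ∀ x, F (x * T) = F x := fun x => by
      simp only [hF]
      rw [← hh ((x⁻¹ : SL(2, ℤ)) : SL(2, ℤ) ⧸ Γ)]
      simp only [Ribbon.τ_apply, ribbon_σ, ribbon_ρ, MulAction.Quotient.smul_coe, smul_eq_mul,
        ← mul_inv_rev]
      rw [mul_assoc x rot rot, mul_assoc x (rot * rot) S, rot_mul_rot_mul_S]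
    have key := hz F (fun δ hδ x => by simp only [mul_assoc, hFinv δ hδ]) hFT
    have hγ : F (1 * (γ : SL(2, ℤ))) = F 1 := by simpa using hFinv _ γ.2 1
    rw [hγ, sub_self] at key
    rw [← key]
    refine Finset.sum_congr rfl fun q _ => ?_
    simp only [hF, inv_inv, QuotientGroup.out_eq', mul_inv_rev, ribbon_σ]
    rw [← smul_eq_mul (a := S⁻¹), ← MulAction.Quotient.smul_coe, QuotientGroup.out_eq'])
  obtain ⟨d, Φ, hΦ, hΦu⟩ := exists_hom_of_isEdgeFun hneg hu
  refine ⟨d, isParabolicHom_iff.mp hΦ.isParabolicHom, fun ψ hψ => ?_⟩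
  have hΨ := isPot_pot hψ.isParabolicHom
  rw [rawPairing_eq hneg hΦ hΨ, triSum_cup_eq_cupSum hneg hΦ hΨ, funext hΦu,
    hdual _ (hΨ.isEdgeFun hneg)]
  congr 1
  have key := hz (fun x => pot ψ (cuspAt x)) hΨ.edge_isInv (fun x => by rw [cuspAt_mul_T])
  rw [show (∑ q, z q * edgeFun (pot ψ) q) =
    ∑ q, z q * (pot ψ (cuspAt ((q.out)⁻¹ * S)) - pot ψ (cuspAt (q.out)⁻¹)) from rfl, key,
    one_mul, show cuspAt (γ : SL(2, ℤ)) = toGL (γ : SL(2, ℤ)) • cuspAt 1 by
      rw [toGL_smul_cuspAt, mul_one], hΨ γ]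
  simp

/-- The normalised integral pairing. -/
noncomputable def intPairing (φ ψ : Additive Γ →+ ℤ) : ℤ := rawPairing φ ψ / 3

theorem three_mul_intPairing (hneg : (-1 : SL(2, ℤ)) ∈ Γ) {φ ψ : Additive Γ →+ ℤ}
    (hφ : IsParabolicHom Γ φ) (hψ : IsParabolicHom Γ ψ) :
    3 * intPairing φ ψ = rawPairing φ ψ :=
  Int.mul_ediv_cancel' (three_dvd_rawPairing hneg hφ hψ)

section General

variable (hneg : (-1 : SL(2, ℤ)) ∈ Γ) (R)

/-- The intersection pairing with coefficients in a commutative ring. -/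
noncomputable def pairing :
    parEllHoms Γ R R →ₗ[R] parEllHoms Γ R R →ₗ[R] R :=
  LinearMap.mk₂ R
    (fun φ ψ => ∑ i, ∑ j, (φ : Additive Γ →+ R) (Additive.ofMul (parGen hneg i)) *
      (ψ : Additive Γ →+ R) (Additive.ofMul (parGen hneg j)) *
        (intPairing (parDual hneg i) (parDual hneg j) : R))
    (fun a b c => by simp [add_mul, Finset.sum_add_distrib])
    (fun r a b => by simp [Finset.mul_sum, mul_assoc])
    (fun a b c => by simp [mul_add, add_mul, Finset.sum_add_distrib])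
    (fun r a b => by simp [Finset.mul_sum, mul_assoc, mul_left_comm])

variable {R}

/-- The reduction of an integral class. -/
noncomputable def castHom (φ : parEllHoms Γ ℤ ℤ) : parEllHoms Γ R R :=
  ⟨(Int.castAddHom R).comp (φ : Additive Γ →+ ℤ), IsParEllHom.comp φ.2 _⟩

omit [Γ.FiniteIndex] in
@[simp] theorem castHom_apply (φ : parEllHoms Γ ℤ ℤ) (γ : Additive Γ) :
    (castHom (R := R) φ : Additive Γ →+ R) γ = (((φ : Additive Γ →+ ℤ) γ : ℤ) : R) := rfl

/-- The dual basis as classes. -/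
noncomputable def basis (i : Fin (parRank Γ)) : parEllHoms Γ ℤ ℤ :=
  ⟨parDual hneg i, parDual_isParEllHom hneg i⟩

theorem eq_sum_castHom (φ : parEllHoms Γ R R) :
    φ = ∑ i, (φ : Additive Γ →+ R) (Additive.ofMul (parGen hneg i)) •
      castHom (basis hneg i) := by
  refine Subtype.ext (AddMonoidHom.ext fun γ => ?_)
  rw [(show IsParEllHom Γ (φ : Additive Γ →+ R) from φ.2).apply_eq_sum hneg γ]
  simp [basis, mul_comm, Submodule.coe_sum]

include hneg in
/-- Bilinear forms agreeing on integral classes are equal. -/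
theorem bilin_ext {Δ : Subgroup SL(2, ℤ)} [Δ.FiniteIndex] (hneg' : (-1 : SL(2, ℤ)) ∈ Δ)
    {B B' : parEllHoms Γ R R →ₗ[R] parEllHoms Δ R R →ₗ[R] R}
    (h : ∀ (φ : parEllHoms Γ ℤ ℤ) (ψ : parEllHoms Δ ℤ ℤ),
      B (castHom φ) (castHom ψ) = B' (castHom φ) (castHom ψ))
    (φ : parEllHoms Γ R R) (ψ : parEllHoms Δ R R) : B φ ψ = B' φ ψ := by
  rw [eq_sum_castHom hneg φ, eq_sum_castHom hneg' ψ]
  simp only [map_sum, map_smul, LinearMap.sum_apply, LinearMap.smul_apply, h]

include hneg in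
theorem intPairing_eq_sum (φ ψ : parEllHoms Γ ℤ ℤ) :
    intPairing (φ : Additive Γ →+ ℤ) (ψ : Additive Γ →+ ℤ) = pairing ℤ hneg φ ψ := by
  have hp : ∀ a : parEllHoms Γ ℤ ℤ, IsParabolicHom Γ (a : Additive Γ →+ ℤ) :=
    fun a => IsParEllHom.isParabolicHom a.2
  let B : parEllHoms Γ ℤ ℤ →ₗ[ℤ] parEllHoms Γ ℤ ℤ →ₗ[ℤ] ℤ :=
    LinearMap.mk₂ ℤ (fun a b => rawPairing (a : Additive Γ →+ ℤ) (b : Additive Γ →+ ℤ))
      (fun a b c => rawPairing_add_left hneg (hp a) (hp b) (hp c))
      (fun r a b => rawPairing_smul_left hneg r (hp a) (hp b))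
      (fun a b c => by
        rw [← neg_inj, ← rawPairing_swap, neg_add, ← rawPairing_swap, ← rawPairing_swap]
        exact rawPairing_add_left hneg (hp b) (hp c) (hp a))
      (fun r a b => by
        rw [← neg_inj, ← rawPairing_swap, ← smul_neg, ← rawPairing_swap]
        exact rawPairing_smul_left hneg r (hp b) (hp a))
  have e : B φ ψ = (3 : ℤ) * pairing ℤ hneg φ ψ := by
    conv_lhs => rw [eq_sum_castHom hneg φ, eq_sum_castHom hneg ψ]
    have hc : ∀ i, castHom (R := ℤ) (basis hneg i) = basis hneg i := fun i =>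
      Subtype.ext (AddMonoidHom.ext fun γ => by simp)
    simp only [map_sum, map_smul, LinearMap.sum_apply, LinearMap.smul_apply, hc, smul_eq_mul]
    show _ = (3 : ℤ) * ∑ i : Fin (parRank Γ), ∑ j : Fin (parRank Γ), _
    simp only [Finset.mul_sum]
    rw [Finset.sum_comm]
    refine Finset.sum_congr rfl fun i _ => Finset.sum_congr rfl fun j _ => ?_
    show _ * (_ * rawPairing (parDual hneg i) (parDual hneg j)) = _
    rw [← three_mul_intPairing hneg (parDual_isParEllHom hneg i).isParabolicHom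
      (parDual_isParEllHom hneg j).isParabolicHom]
    simp only [Int.cast_id]
    ring
  have e2 := three_mul_intPairing hneg (hp φ) (hp ψ)
  have e3 : B φ ψ = rawPairing (φ : Additive Γ →+ ℤ) (ψ : Additive Γ →+ ℤ) := rfl
  omega

/-- The pairing is natural. -/
theorem pairing_castHom (φ ψ : parEllHoms Γ ℤ ℤ) :
    pairing R hneg (castHom φ) (castHom ψ) =
      ((intPairing (φ : Additive Γ →+ ℤ) (ψ : Additive Γ →+ ℤ) : ℤ) : R) := by
  rw [intPairing_eq_sum hneg]
  show ∑ i : Fin (parRank Γ), ∑ j : Fin (parRank Γ), _ =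
    ((∑ i : Fin (parRank Γ), ∑ j : Fin (parRank Γ), _ : ℤ) : R)
  push_cast
  simp

theorem pairing_self (φ : parEllHoms Γ R R) : pairing R hneg φ φ = 0 := by
  have hz : ∀ i, intPairing (parDual hneg i) (parDual hneg i) = 0 := fun i => by
    simp [intPairing, rawPairing_self]
  have ha : ∀ i j, intPairing (parDual hneg j) (parDual hneg i) =
      -intPairing (parDual hneg i) (parDual hneg j) := fun i j => by
    have h1 := three_mul_intPairing hneg (parDual_isParEllHom hneg i).isParabolicHom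
      (parDual_isParEllHom hneg j).isParabolicHom
    have h2 := three_mul_intPairing hneg (parDual_isParEllHom hneg j).isParabolicHom
      (parDual_isParEllHom hneg i).isParabolicHom
    rw [rawPairing_swap] at h2
    omega
  show ∑ i : Fin (parRank Γ), ∑ j : Fin (parRank Γ), _ = 0
  rw [← Finset.sum_product']
  refine Finset.sum_involution (fun p _ => (p.2, p.1)) ?_ ?_ (by simp) (by simp)
  · rintro ⟨i, j⟩ _
    rw [ha i j]
    push_cast
    ring
  · rintro ⟨i, j⟩ _ hne hfix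
    apply hne
    obtain rfl : j = i := congrArg Prod.fst hfix
    rw [hz]
    simp

theorem pairing_swap (φ ψ : parEllHoms Γ R R) :
    pairing R hneg ψ φ = -pairing R hneg φ ψ := by
  have h := pairing_self hneg (φ + ψ)
  simp only [map_add, LinearMap.add_apply, pairing_self, zero_add, add_zero] at h
  exact eq_neg_of_add_eq_zero_left (by rw [← h])

/-- An integral class dual to `γ`. -/
theorem exists_pairing_dual (γ : Γ) : ∃ d : parEllHoms Γ ℤ ℤ, ∀ ψ : parEllHoms Γ R R,
      pairing R hneg (castHom d) ψ = 4 * (ψ : Additive Γ →+ R) (Additive.ofMul γ) := by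
  obtain ⟨d, hd, hdual⟩ := exists_dual_class hneg γ
  refine ⟨⟨d, hd⟩, fun ψ => ?_⟩
  conv_lhs => rw [eq_sum_castHom hneg ψ]
  conv_rhs => rw [eq_sum_castHom hneg ψ]
  simp only [map_sum, map_smul, pairing_castHom, Submodule.coe_sum, Submodule.coe_smul,
    AddMonoidHom.finsetSum_apply, AddMonoidHom.smul_apply, castHom_apply, smul_eq_mul,
    Finset.mul_sum]
  refine Finset.sum_congr rfl fun i _ => ?_
  have e1 := three_mul_intPairing hneg hd.isParabolicHom
    (parDual_isParEllHom hneg i).isParabolicHom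
  rw [hdual _ (parDual_isParEllHom hneg i)] at e1
  have e2 : intPairing d (parDual hneg i) = 4 * parDual hneg i (Additive.ofMul γ) := by omega
  simp only [basis]
  rw [e2]
  push_cast
  ring

/-- The pairing is nondegenerate when `2` is invertible. -/
theorem eq_zero_of_pairing_eq_zero (h2 : IsUnit (2 : R)) {φ : parEllHoms Γ R R}
    (h : ∀ ψ, pairing R hneg φ ψ = 0) : φ = 0 := by
  refine Subtype.ext (AddMonoidHom.ext fun γ => ?_)
  obtain ⟨d, hd⟩ := exists_pairing_dual (R := R) hneg (Additive.toMul γ)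
  have e := hd φ
  rw [pairing_swap hneg φ, h, neg_zero] at e
  have h4 : IsUnit (4 : R) := by
    have := h2.mul h2
    norm_num at this
    exact this
  simpa using (h4.mul_right_eq_zero).mp e.symm

/-- **The pairing is perfect** when `2` is invertible. -/
theorem pairing_bijective (h2 : IsUnit (2 : R)) : Function.Bijective (pairing R hneg) := by
  constructor
  · rw [injective_iff_map_eq_zero]
    intro φ hφ
    exact eq_zero_of_pairing_eq_zero hneg h2 fun ψ => by rw [hφ]; rfl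
  · intro f
    choose d hd using fun i => exists_pairing_dual (R := R) hneg (parGen hneg i)
    have h4 : IsUnit (4 : R) := by
      have := h2.mul h2
      norm_num at this
      exact this
    obtain ⟨u, hu⟩ := h4
    refine ⟨∑ i, (((u⁻¹ : Rˣ) : R) * f (castHom (basis hneg i))) • castHom (d i),
      LinearMap.ext fun ψ => ?_⟩
    simp only [map_sum, map_smul, LinearMap.sum_apply, LinearMap.smul_apply, smul_eq_mul, hd]
    conv_rhs => rw [eq_sum_castHom hneg ψ]
    simp only [map_sum, map_smul, smul_eq_mul, ← hu]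
    refine Finset.sum_congr rfl fun i _ => ?_
    rw [show ∀ a b c d : R, a * b * (c * d) = (a * c) * (d * b) from fun a b c d => by ring,
      Units.inv_mul, one_mul]

theorem exists_pairing_eq (h2 : IsUnit (2 : R)) (f : parEllHoms Γ R R →ₗ[R] R) :
    ∃ φ, pairing R hneg φ = f :=
  (pairing_bijective hneg h2).2 f

end General

end Fermat.Agent.Duality
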