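/-
Transfer of homomorphisms to a bigger finite index subgroup, computed by primitives for any
system of coset representatives; conjugation by an element of `GL(2, ℚ)`.
-/
import Fermat.Agent.Duality.Pairing
import Fermat.Agent.HeckeCohom.Operators

set_option autoImplicit false

namespace Fermat.Agent.Duality

open scoped MatrixGroups
open ModularGroup ModularCurve.Period Fermat.Agent.ParHom

variable {H Γ : Subgroup SL(2, ℤ)}

theorem isReps_mul_right {ι : Type*} {r : ι → SL(2, ℤ)} (hr : IsReps H Γ r) {γ : SL(2, ℤ)}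
    (hγ : γ ∈ Γ) : IsReps H Γ (fun i => r i * γ) := by
  refine ⟨fun i => Γ.mul_mem (hr.1 i) hγ, fun g hg => ?_⟩
  have e : ∀ i, g * (r i * γ)⁻¹ = g * γ⁻¹ * (r i)⁻¹ := fun i => by group
  simp only [e]
  exact hr.2 _ (Γ.mul_mem hg (Γ.inv_mem hγ))

theorem isReps_change {ι κ : Type*} {r : ι → SL(2, ℤ)} {r' : κ → SL(2, ℤ)}
    (hr : IsReps H Γ r) (hr' : IsReps H Γ r') :
    ∃ (π : κ ≃ ι) (η : κ → H), ∀ k, r' k = (η k : SL(2, ℤ)) * r (π k) := by
  have h1 : ∀ k, ∃ i, r' k * (r i)⁻¹ ∈ H := fun k => (hr.2 _ (hr'.1 k)).exists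
  choose π hπ using h1
  have hbij : Function.Bijective π := by
    refine ⟨fun k k' hk => ?_, fun i => ?_⟩
    · have hm : r' k * (r' k')⁻¹ ∈ H := by
        have := H.mul_mem (hπ k) (H.inv_mem (hπ k'))
        rw [hk] at this
        simpa [mul_assoc] using this
      obtain ⟨j, -, hj⟩ := hr'.2 (r' k) (hr'.1 k)
      rw [hj k (by simp), hj k' hm]
    · obtain ⟨k, hk, -⟩ := hr'.2 (r i) (hr.1 i)
      refine ⟨k, ?_⟩
      have hm : r i * (r (π k))⁻¹ ∈ H := by
        have := H.mul_mem hk (hπ k)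
        simpa [mul_assoc] using this
      obtain ⟨j, -, hj⟩ := hr.2 (r i) (hr.1 i)
      rw [hj i (by simp), hj (π k) hm]
  exact ⟨Equiv.ofBijective π hbij, fun k => ⟨_, hπ k⟩, fun k => by simp⟩

section Sums

variable {A : Type*} [AddCommGroup A]

/-- A primitive of `z` on `SL(2, ℤ)` itself. -/
noncomputable def prim (z : Additive H →+ A) (x : SL(2, ℤ)) : A :=
  z (Additive.ofMul ⟨x * ((x⁻¹ : SL(2, ℤ)) : SL(2, ℤ) ⧸ H).out, by
    obtain ⟨h, hh⟩ := QuotientGroup.mk_out_eq_mul H x⁻¹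
    rw [hh, mul_inv_cancel_left]
    exact h.2⟩)

theorem prim_mul (z : Additive H →+ A) (η : H) (x : SL(2, ℤ)) :
    prim z (η * x) = z (Additive.ofMul η) + prim z x := by
  have hc : (((((η : SL(2, ℤ)) * x)⁻¹ : SL(2, ℤ))) : SL(2, ℤ) ⧸ H) =
      ((x⁻¹ : SL(2, ℤ)) : SL(2, ℤ) ⧸ H) := by
    rw [QuotientGroup.eq]
    simpa [mul_assoc] using η.2
  unfold prim
  rw [← map_add, ← ofMul_mul]
  congr 2
  apply Subtype.ext
  simp only [hc, Subgroup.coe_mul, mul_assoc]

theorem prim_comp {B : Type*} [AddCommGroup B] (g : A →+ B) (z : Additive H →+ A)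
    (x : SL(2, ℤ)) : prim (g.comp z) x = g (prim z x) := rfl

theorem sum_periods_eq {ι κ : Type*} [Fintype ι] [Fintype κ] {r : ι → SL(2, ℤ)}
    {r' : κ → SL(2, ℤ)} (hr : IsReps H Γ r) (hr' : IsReps H Γ r') {z : Additive H →+ A}
    {F : SL(2, ℤ) → A} (hF : ∀ (η : H) y, F (η * y) = z (Additive.ofMul η) + F y)
    {γ : SL(2, ℤ)} :
    ∑ k, (F (r' k * γ) - F (r' k)) = ∑ i, (F (r i * γ) - F (r i)) := by
  obtain ⟨π, η, e⟩ := isReps_change hr hr'
  rw [← π.sum_comp (fun i => F (r i * γ) - F (r i))]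
  refine Finset.sum_congr rfl fun k _ => ?_
  rw [e k, mul_assoc, hF, hF]
  abel

/-- The permutation and the witnesses of right multiplication by `γ`. -/
theorem exists_step {ι : Type*} {r : ι → SL(2, ℤ)} (hr : IsReps H Γ r) {γ : SL(2, ℤ)}
    (hγ : γ ∈ Γ) :
    ∃ (π : Equiv.Perm ι) (δ : ι → H), ∀ i, r i * γ = (δ i : SL(2, ℤ)) * r (π i) :=
  isReps_change hr (isReps_mul_right hr hγ)

theorem sum_periods_eq_sum {ι : Type*} [Fintype ι] {r : ι → SL(2, ℤ)} {z : Additive H →+ A}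
    {F : SL(2, ℤ) → A} (hF : ∀ (η : H) y, F (η * y) = z (Additive.ofMul η) + F y)
    {γ : SL(2, ℤ)} {π : Equiv.Perm ι} {δ : ι → H}
    (e : ∀ i, r i * γ = (δ i : SL(2, ℤ)) * r (π i)) :
    ∑ i, (F (r i * γ) - F (r i)) = ∑ i, z (Additive.ofMul (δ i)) := by
  simp only [e, hF, add_sub_assoc, Finset.sum_add_distrib, Finset.sum_sub_distrib]
  rw [Equiv.sum_comp π (fun i => F (r i)), sub_self, add_zero]

variable (H Γ) [H.FiniteIndex]

/-- The chosen representatives of `H \ Γ`. -/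
noncomputable def stdRep (q : Γ ⧸ H.subgroupOf Γ) : SL(2, ℤ) := ((q.out)⁻¹ : Γ)

noncomputable instance : Fintype (Γ ⧸ H.subgroupOf Γ) := Subgroup.fintypeQuotientOfFiniteIndex

omit [H.FiniteIndex] in
theorem isReps_stdRep : IsReps H Γ (stdRep H Γ) := by
  refine ⟨fun q => ((q.out)⁻¹ : Γ).2, fun g hg => ?_⟩
  refine ⟨(((⟨g, hg⟩ : Γ)⁻¹ : Γ) : Γ ⧸ H.subgroupOf Γ), ?_, fun q hq => ?_⟩
  · obtain ⟨h, hh⟩ := QuotientGroup.mk_out_eq_mul (H.subgroupOf Γ) (⟨g, hg⟩ : Γ)⁻¹
    have h2 : ((h : Γ) : SL(2, ℤ)) ∈ H := Subgroup.mem_subgroupOf.mp h.2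
    show g * (stdRep H Γ _)⁻¹ ∈ H
    unfold stdRep
    rw [hh]
    simpa using h2
  · rw [← QuotientGroup.out_eq' q, QuotientGroup.eq, Subgroup.mem_subgroupOf]
    unfold stdRep at hq
    have := H.inv_mem hq
    simpa using this

variable {H Γ}

theorem cor_add_aux (z : Additive H →+ A) (γ δ : Γ) :
    ∑ q, (prim z (stdRep H Γ q * ((γ * δ : Γ) : SL(2, ℤ))) - prim z (stdRep H Γ q)) =
      ∑ q, (prim z (stdRep H Γ q * (γ : SL(2, ℤ))) - prim z (stdRep H Γ q)) +
        ∑ q, (prim z (stdRep H Γ q * (δ : SL(2, ℤ))) - prim z (stdRep H Γ q)) := by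
  rw [← sum_periods_eq (isReps_stdRep H Γ) (isReps_mul_right (isReps_stdRep H Γ) γ.2)
    (prim_mul z) (γ := (δ : SL(2, ℤ))), ← Finset.sum_add_distrib]
  refine Finset.sum_congr rfl fun q _ => ?_
  rw [Subgroup.coe_mul, ← mul_assoc]
  abel

variable (H Γ) (R : Type*) [Semiring R] (A) [Module R A]

/-- The transfer `Hom(H, A) → Hom(Γ, A)`. -/
noncomputable def cor : (Additive H →+ A) →ₗ[R] (Additive Γ →+ A) where
  toFun z := AddMonoidHom.mk'
    (fun γ => ∑ q, (prim z (stdRep H Γ q * ((Additive.toMul γ : Γ) : SL(2, ℤ))) -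
      prim z (stdRep H Γ q))) (fun γ δ => cor_add_aux z _ _)
  map_add' z w := by
    refine AddMonoidHom.ext fun γ => ?_
    simp only [AddMonoidHom.mk'_apply, AddMonoidHom.add_apply]
    rw [← Finset.sum_add_distrib]
    refine Finset.sum_congr rfl fun q _ => ?_
    simp only [prim, AddMonoidHom.add_apply]
    abel
  map_smul' c z := by
    refine AddMonoidHom.ext fun γ => ?_
    simp only [AddMonoidHom.mk'_apply, RingHom.id_apply, AddMonoidHom.smul_apply]
    rw [Finset.smul_sum]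
    refine Finset.sum_congr rfl fun q _ => ?_
    simp only [prim, smul_sub]
    rfl

variable {H Γ R A}

theorem cor_comp {B S : Type*} [Semiring S] [AddCommGroup B] [Module S B] (g : A →+ B)
    (z : Additive H →+ A) : g.comp (cor H Γ A R z) = cor H Γ B S (g.comp z) := by
  refine AddMonoidHom.ext fun γ => ?_
  simp only [cor, LinearMap.coe_mk, AddHom.coe_mk, AddMonoidHom.comp_apply,
    AddMonoidHom.mk'_apply]
  rw [map_sum]
  exact Finset.sum_congr rfl fun q _ => map_sub g _ _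

/-- The transfer from witnesses of the permutation of any representatives. -/
theorem cor_eq_sum {ι : Type*} [Fintype ι] {r : ι → SL(2, ℤ)} (hr : IsReps H Γ r)
    (z : Additive H →+ A) (γ : Γ) {π : Equiv.Perm ι} {δ : ι → H}
    (e : ∀ i, r i * (γ : SL(2, ℤ)) = (δ i : SL(2, ℤ)) * r (π i)) :
    cor H Γ A R z (Additive.ofMul γ) = ∑ i, z (Additive.ofMul (δ i)) := by
  rw [← sum_periods_eq_sum (prim_mul z) e]
  exact sum_periods_eq hr (isReps_stdRep H Γ) (prim_mul z)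

/-- The transfer from any primitive, on any set with an action. -/
theorem cor_eq_periods {ι : Type*} [Fintype ι] {r : ι → SL(2, ℤ)} (hr : IsReps H Γ r)
    (z : Additive H →+ A) {G X : Type*} [Group G] [MulAction G X] (ρ : SL(2, ℤ) →* G)
    {F : X → A} (hF : ∀ (η : H) x, F (ρ (η : SL(2, ℤ)) • x) = z (Additive.ofMul η) + F x)
    (γ : Γ) (x : X) :
    cor H Γ A R z (Additive.ofMul γ) =
      ∑ i, F (ρ (r i * (γ : SL(2, ℤ))) • x) - ∑ i, F (ρ (r i) • x) := by
  obtain ⟨π, δ, e⟩ := exists_step hr γ.2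
  rw [cor_eq_sum hr z γ e,
    ← sum_periods_eq_sum (F := fun g => F (ρ g • x))
      (fun η y => by rw [map_mul, mul_smul, hF]) e, Finset.sum_sub_distrib]

theorem IsPot.cor {ι : Type*} [Fintype ι] {r : ι → SL(2, ℤ)} (hr : IsReps H Γ r)
    {z : Additive H →+ A} {Φ : OnePoint ℚ → A} (hΦ : IsPot z Φ) :
    IsPot (Duality.cor H Γ A R z) (fun x => ∑ i, Φ (toGL (r i) • x)) := by
  intro γ x
  rw [cor_eq_periods hr z toGL (F := Φ) (fun η y => hΦ η y) γ x]
  simp only [map_mul, mul_smul]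
  abel

theorem cor_mem_parEllHoms (z : Additive H →+ A) (hz : IsParEllHom H z) :
    IsParEllHom Γ (cor H Γ A R z) := by
  intro γ hγ
  obtain ⟨π, δ, e⟩ := exists_step (isReps_stdRep H Γ) γ.2
  rw [cor_eq_sum (isReps_stdRep H Γ) z γ e]
  refine HeckeCohom.sum_eq_zero_of_periodic π _ fun i n hn => ?_
  have hstep : ∀ k, ∃ c : H, stdRep H Γ i * (γ : SL(2, ℤ)) ^ k =
      (c : SL(2, ℤ)) * stdRep H Γ ((⇑π)^[k] i) ∧
      z (Additive.ofMul c) = ∑ m ∈ Finset.range k, z (Additive.ofMul (δ ((⇑π)^[m] i))) := by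
    intro k
    induction k with
    | zero => exact ⟨1, by simp, by simp⟩
    | succ k ih =>
      obtain ⟨c, hc, hz'⟩ := ih
      refine ⟨c * δ ((⇑π)^[k] i), ?_, ?_⟩
      · rw [pow_succ, ← mul_assoc, hc, mul_assoc, e, Function.iterate_succ_apply', ← mul_assoc,
          Subgroup.coe_mul]
      · rw [ofMul_mul, map_add, Finset.sum_range_succ, hz']
  obtain ⟨c, hc, hzc⟩ := hstep n
  rw [hn] at hc
  rw [← hzc]
  refine hz c ?_
  have hc' : (c : SL(2, ℤ)) = stdRep H Γ i * (γ : SL(2, ℤ)) ^ n * (stdRep H Γ i)⁻¹ := by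
    rw [hc, mul_inv_cancel_right]
  have ht : tr (c : SL(2, ℤ)) = tr ((γ : SL(2, ℤ)) ^ n) := by
    rw [hc']
    unfold tr
    rw [Matrix.SpecialLinearGroup.coe_mul, Matrix.trace_mul_comm,
      ← Matrix.SpecialLinearGroup.coe_mul, ← mul_assoc, inv_mul_cancel, one_mul]
  rw [ht]
  exact HeckeCohom.trace_sq_pow_le hγ n

end Sums

section Maps

variable (R : Type*) [Semiring R] (A : Type*) [AddCommGroup A] [Module R A]

/-- Pullback along a group homomorphism. -/
def pullHom (j : H →* Γ) : (Additive Γ →+ A) →ₗ[R] (Additive H →+ A) where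
  toFun φ := φ.comp j.toAdditive
  map_add' _ _ := rfl
  map_smul' _ _ := rfl

theorem pullHom_mem {j : H →* Γ} (hj : ∀ h, tr (j h : SL(2, ℤ)) = tr (h : SL(2, ℤ)))
    {φ : Additive Γ →+ A} (hφ : IsParEllHom Γ φ) : IsParEllHom H (pullHom R A j φ) :=
  fun h hh => hφ (j h) (by rw [hj]; exact hh)

/-- Restriction of parabolic-elliptic homomorphisms. -/
def resPar (hH : H ≤ Γ) : parEllHoms Γ R A →ₗ[R] parEllHoms H R A :=
  (pullHom R A (Subgroup.inclusion hH)).restrict fun _ hφ =>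
    pullHom_mem R A (fun _ => rfl) hφ

@[simp] theorem resPar_apply (hH : H ≤ Γ) (φ : parEllHoms Γ R A) (h : H) :
    (resPar R A hH φ : Additive H →+ A) (Additive.ofMul h) =
      (φ : Additive Γ →+ A) (Additive.ofMul (Subgroup.inclusion hH h)) := rfl

/-- Transfer of parabolic-elliptic homomorphisms. -/
noncomputable def corPar [H.FiniteIndex] : parEllHoms H R A →ₗ[R] parEllHoms Γ R A :=
  (cor H Γ A R).restrict fun z hz => cor_mem_parEllHoms z hz

@[simp] theorem coe_corPar [H.FiniteIndex] (z : parEllHoms H R A) :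
    (corPar (Γ := Γ) R A z : Additive Γ →+ A) = cor H Γ A R (z : Additive H →+ A) := rfl

theorem tr_eq_of_conj {α : GL (Fin 2) ℚ} {g k : SL(2, ℤ)} (e : α * toGL g = toGL k * α) :
    tr k = tr g := by
  have h : toGL k = α * toGL g * α⁻¹ := by rw [e, mul_inv_cancel_right]
  have h2 : ((toGL k : GL (Fin 2) ℚ) : Matrix (Fin 2) (Fin 2) ℚ).trace =
      ((toGL g : GL (Fin 2) ℚ) : Matrix (Fin 2) (Fin 2) ℚ).trace := by
    rw [h, Units.val_mul, Units.val_mul, Matrix.trace_units_conj]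
  simp only [Matrix.trace_fin_two, toGL_apply] at h2
  unfold tr
  simp only [Matrix.trace_fin_two]
  exact_mod_cast h2

/-- Pullback along conjugation by `α`. -/
def conjPar (α : GL (Fin 2) ℚ) (j : H →* Γ)
    (hj : ∀ h : H, α * toGL (h : SL(2, ℤ)) = toGL (j h : SL(2, ℤ)) * α) :
    parEllHoms Γ R A →ₗ[R] parEllHoms H R A :=
  (pullHom R A j).restrict fun _ hφ => pullHom_mem R A (fun h => tr_eq_of_conj (hj h)) hφ

@[simp] theorem conjPar_apply (α : GL (Fin 2) ℚ) (j : H →* Γ)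
    (hj : ∀ h : H, α * toGL (h : SL(2, ℤ)) = toGL (j h : SL(2, ℤ)) * α)
    (φ : parEllHoms Γ R A) (h : H) :
    (conjPar R A α j hj φ : Additive H →+ A) (Additive.ofMul h) =
      (φ : Additive Γ →+ A) (Additive.ofMul (j h)) := rfl

end Maps

end Fermat.Agent.Duality
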