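/-
Adjointness: restriction and transfer, and conjugation, for the intersection pairing.
-/
import Fermat.Agent.Duality.Transfer

set_option autoImplicit false

namespace Fermat.Agent.Duality

open scoped MatrixGroups
open ModularGroup ModularCurve.Period Fermat.Agent.ParHom

variable {H Γ : Subgroup SL(2, ℤ)} [H.FiniteIndex] [Γ.FiniteIndex]

/-- Integral adjointness of restriction and transfer. -/
theorem intPairing_res (hnegH : (-1 : SL(2, ℤ)) ∈ H) (hneg : (-1 : SL(2, ℤ)) ∈ Γ) (hH : H ≤ Γ)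
    (φ : parEllHoms Γ ℤ ℤ) (z : parEllHoms H ℤ ℤ) :
    intPairing (resPar ℤ ℤ hH φ : Additive H →+ ℤ) (z : Additive H →+ ℤ) =
      intPairing (φ : Additive Γ →+ ℤ) (corPar (Γ := Γ) ℤ ℤ z : Additive Γ →+ ℤ) := by
  have hΦ := isPot_pot (show IsParEllHom Γ (φ : Additive Γ →+ ℤ) from φ.2).isParabolicHom
  have hZ := isPot_pot (show IsParEllHom H (z : Additive H →+ ℤ) from z.2).isParabolicHom
  set Φ := pot (φ : Additive Γ →+ ℤ)
  set Z := pot (z : Additive H →+ ℤ)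
  have hΦ' : IsPot (resPar ℤ ℤ hH φ : Additive H →+ ℤ) Φ := fun h x =>
    hΦ (Subgroup.inclusion hH h) x
  have hr := isReps_stdRep H Γ
  have hC := hZ.cor (R := ℤ) hr
  have e : rawPairing (resPar ℤ ℤ hH φ : Additive H →+ ℤ) (z : Additive H →+ ℤ) =
      rawPairing (φ : Additive Γ →+ ℤ) (corPar (Γ := Γ) ℤ ℤ z : Additive Γ →+ ℤ) := by
    rw [coe_corPar, rawPairing_eq hnegH hΦ' hZ, rawPairing_eq hneg hΦ hC]
    unfold triSum
    rw [cosetSum_subgroup hH hr ((invCocycle_cup hΦ' hZ).tri_isInv)]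
    refine cosetSum_congr fun g => ?_
    simp only [tri, cup, mul_assoc, ← toGL_smul_cuspAt, map_mul, mul_smul]
    simp only [fun i x => hΦ ⟨stdRep H Γ i, hr.1 i⟩ x, ← Finset.sum_sub_distrib,
      Finset.mul_sum]
    exact Finset.sum_congr rfl fun i _ => by ring
  have h1 := three_mul_intPairing hnegH hΦ'.isParabolicHom hZ.isParabolicHom
  have h2 := three_mul_intPairing hneg hΦ.isParabolicHom hC.isParabolicHom
  rw [coe_corPar] at e ⊢
  omega

variable {R : Type*} [CommRing R]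

omit [H.FiniteIndex] [Γ.FiniteIndex] in
theorem resPar_castHom (hH : H ≤ Γ) (φ : parEllHoms Γ ℤ ℤ) :
    resPar R R hH (castHom φ) = castHom (resPar ℤ ℤ hH φ) := rfl

omit [Γ.FiniteIndex] in
theorem corPar_castHom (z : parEllHoms H ℤ ℤ) :
    corPar (Γ := Γ) R R (castHom z) = castHom (corPar (Γ := Γ) ℤ ℤ z) :=
  Subtype.ext (cor_comp (R := ℤ) (S := R) (Int.castAddHom R) (z : Additive H →+ ℤ)).symm

/-- **Transfer is adjoint to restriction.** -/
theorem pairing_res (hnegH : (-1 : SL(2, ℤ)) ∈ H) (hneg : (-1 : SL(2, ℤ)) ∈ Γ) (hH : H ≤ Γ)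
    (φ : parEllHoms Γ R R) (z : parEllHoms H R R) :
    pairing R hnegH (resPar R R hH φ) z = pairing R hneg φ (corPar (Γ := Γ) R R z) :=
  bilin_ext hneg hnegH
    (B := (pairing R hnegH).comp (resPar R R hH))
    (B' := (pairing R hneg).compl₂ (corPar (Γ := Γ) R R))
    (fun a b => by
      simp only [LinearMap.comp_apply, LinearMap.compl₂_apply, resPar_castHom, corPar_castHom,
        pairing_castHom, intPairing_res hnegH hneg hH]) φ z

/-- **Transfer is adjoint to restriction**, the other side. -/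
theorem pairing_res_right (hnegH : (-1 : SL(2, ℤ)) ∈ H) (hneg : (-1 : SL(2, ℤ)) ∈ Γ) (hH : H ≤ Γ)
    (φ : parEllHoms Γ R R) (z : parEllHoms H R R) :
    pairing R hnegH z (resPar R R hH φ) = pairing R hneg (corPar (Γ := Γ) R R z) φ := by
  rw [pairing_swap hnegH, pairing_res hnegH hneg hH, ← pairing_swap hneg]

variable {Γ' : Subgroup SL(2, ℤ)} [Γ'.FiniteIndex]

omit [Γ.FiniteIndex] [Γ'.FiniteIndex] in
theorem conjPar_castHom (α : GL (Fin 2) ℚ) (j : Γ' →* Γ)
    (hj : ∀ h : Γ', α * toGL (h : SL(2, ℤ)) = toGL (j h : SL(2, ℤ)) * α)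
    (φ : parEllHoms Γ ℤ ℤ) :
    conjPar R R α j hj (castHom φ) = castHom (conjPar ℤ ℤ α j hj φ) := rfl

/-- Integral invariance under conjugation. -/
theorem intPairing_conj (hneg' : (-1 : SL(2, ℤ)) ∈ Γ') (hneg : (-1 : SL(2, ℤ)) ∈ Γ)
    {α : GL (Fin 2) ℚ} (hα : 0 < (α : Matrix (Fin 2) (Fin 2) ℚ).det) (j : Γ' →* Γ)
    (hj : ∀ h : Γ', α * toGL (h : SL(2, ℤ)) = toGL (j h : SL(2, ℤ)) * α)
    (hidx : Γ'.index = Γ.index) (φ ψ : parEllHoms Γ ℤ ℤ) :
    intPairing (conjPar ℤ ℤ α j hj φ : Additive Γ' →+ ℤ)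
        (conjPar ℤ ℤ α j hj ψ : Additive Γ' →+ ℤ) =
      intPairing (φ : Additive Γ →+ ℤ) (ψ : Additive Γ →+ ℤ) := by
  have hΦ := isPot_pot (show IsParEllHom Γ (φ : Additive Γ →+ ℤ) from φ.2).isParabolicHom
  have hΨ := isPot_pot (show IsParEllHom Γ (ψ : Additive Γ →+ ℤ) from ψ.2).isParabolicHom
  have hpot : ∀ {a : parEllHoms Γ ℤ ℤ} {A : OnePoint ℚ → ℤ},
      IsPot (a : Additive Γ →+ ℤ) A →
      IsPot (conjPar ℤ ℤ α j hj a : Additive Γ' →+ ℤ) (fun x => A (α • x)) := by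
    intro a A hA h x
    show A (α • toGL (h : SL(2, ℤ)) • x) = _
    rw [← mul_smul, hj, mul_smul, hA]
    rfl
  set Φ := pot (φ : Additive Γ →+ ℤ)
  set Ψ := pot (ψ : Additive Γ →+ ℤ)
  have hD := invCocycle_cup (hΦ.map (Int.castAddHom ℚ)) (hΨ.map (Int.castAddHom ℚ))
  have h := triSum_conj hneg hneg' hα (fun g hg => ⟨_, (j ⟨g, hg⟩).2, hj ⟨g, hg⟩⟩) hidx hD
  have e : rawPairing (conjPar ℤ ℤ α j hj φ : Additive Γ' →+ ℤ)
      (conjPar ℤ ℤ α j hj ψ : Additive Γ' →+ ℤ) =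
      rawPairing (φ : Additive Γ →+ ℤ) (ψ : Additive Γ →+ ℤ) := by
    rw [rawPairing_eq hneg' (hpot hΦ) (hpot hΨ), rawPairing_eq hneg hΦ hΨ,
      ← @Int.cast_inj ℚ]
    refine Eq.trans ?_ (h.trans ?_)
    · simp only [triSum, cosetSum, tri, cup, Int.cast_sum]
      exact Finset.sum_congr rfl fun q _ => by simp
    · simp only [triSum, cosetSum, tri, cup, Int.cast_sum]
      exact Finset.sum_congr rfl fun q _ => by simp
  have h1 := three_mul_intPairing hneg' (hpot hΦ).isParabolicHom (hpot hΨ).isParabolicHom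
  have h2 := three_mul_intPairing hneg hΦ.isParabolicHom hΨ.isParabolicHom
  omega

/-- **The pairing is invariant under conjugation.** -/
theorem pairing_conj (hneg' : (-1 : SL(2, ℤ)) ∈ Γ') (hneg : (-1 : SL(2, ℤ)) ∈ Γ)
    {α : GL (Fin 2) ℚ} (hα : 0 < (α : Matrix (Fin 2) (Fin 2) ℚ).det) (j : Γ' →* Γ)
    (hj : ∀ h : Γ', α * toGL (h : SL(2, ℤ)) = toGL (j h : SL(2, ℤ)) * α)
    (hidx : Γ'.index = Γ.index) (φ ψ : parEllHoms Γ R R) :
    pairing R hneg' (conjPar R R α j hj φ) (conjPar R R α j hj ψ) = pairing R hneg φ ψ :=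
  bilin_ext hneg hneg
    (B := ((pairing R hneg').comp (conjPar R R α j hj)).compl₂ (conjPar R R α j hj))
    (B' := pairing R hneg)
    (fun a b => by
      simp only [LinearMap.comp_apply, LinearMap.compl₂_apply, conjPar_castHom, pairing_castHom,
        intPairing_conj hneg' hneg hα j hj hidx]) φ ψ

end Fermat.Agent.Duality
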