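/-
Level `N ℓ` versus level `N`: the subgroup `Γ₀(N) ∩ Γ⁰(ℓ)`, its representatives, and
self-adjointness of `T_ℓ` for the intersection pairing.
-/
import Fermat.Agent.Duality.Adjoint
import Fermat.Agent.ParHom.Gamma0

set_option autoImplicit false

namespace Fermat.Agent.Duality

open scoped MatrixGroups
open CongruenceSubgroup Fermat.Agent.ParHom Fermat.Agent.HeckeCohom

/-- The element with the given entries. -/
def mkSL (a b c d : ℤ) (h : a * d - b * c = 1) : SL(2, ℤ) :=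
  ⟨!![a, b; c, d], by rw [Matrix.det_fin_two_of]; exact h⟩

@[simp] theorem coe_mkSL (a b c d : ℤ) (h : a * d - b * c = 1) :
    (mkSL a b c d h : Matrix (Fin 2) (Fin 2) ℤ) = !![a, b; c, d] := rfl

/-- `Γ⁰(l)`: matrices whose upper right entry is divisible by `l`. -/
def upperCong (l : ℕ) : Subgroup SL(2, ℤ) where
  carrier := {g | (l : ℤ) ∣ g 0 1}
  one_mem' := by simp
  mul_mem' {g h} hg hh := by
    simp only [Set.mem_setOf_eq] at hg hh ⊢
    rw [show (g * h) 0 1 = g 0 0 * h 0 1 + g 0 1 * h 1 1 by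
      simp [Matrix.mul_apply, Fin.sum_univ_two]]
    exact dvd_add (hh.mul_left _) (hg.mul_right _)
  inv_mem' {g} hg := by
    simp only [Set.mem_setOf_eq] at hg ⊢
    simpa [Matrix.SpecialLinearGroup.coe_inv, Matrix.adjugate_fin_two] using hg

theorem mem_upperCong {l : ℕ} {g : SL(2, ℤ)} : g ∈ upperCong l ↔ (l : ℤ) ∣ g 0 1 := Iff.rfl

/-- `Γ₀(N) ∩ Γ⁰(l)`. -/
def gammaUp (N l : ℕ) : Subgroup SL(2, ℤ) := Gamma0 N ⊓ upperCong l

theorem gammaUp_le (N l : ℕ) : gammaUp N l ≤ Gamma0 N := inf_le_left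

theorem mem_Gamma0_iff_dvd {N : ℕ} {g : SL(2, ℤ)} : g ∈ Gamma0 N ↔ (N : ℤ) ∣ g 1 0 := by
  rw [Gamma0_mem, ZMod.intCast_zmod_eq_zero_iff_dvd]

theorem Gamma0_mul_le (N l : ℕ) : Gamma0 (N * l) ≤ Gamma0 N := fun g hg => by
  rw [mem_Gamma0_iff_dvd] at hg ⊢
  push_cast at hg
  exact (dvd_mul_right _ _).trans hg

theorem neg_one_mem_gammaUp (N l : ℕ) : (-1 : SL(2, ℤ)) ∈ gammaUp N l :=
  ⟨neg_one_mem_Gamma0 N, by simp [upperCong]⟩

variable (N l : ℕ)

instance finiteIndex_gammaUp [NeZero N] [NeZero l] : (gammaUp N l).FiniteIndex := by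
  refine Subgroup.finiteIndex_of_le (H := Gamma (N * l)) fun g hg => ?_
  rw [Gamma_mem] at hg
  obtain ⟨-, h01, h10, -⟩ := hg
  rw [ZMod.intCast_zmod_eq_zero_iff_dvd] at h01 h10
  push_cast at h01 h10
  exact ⟨mem_Gamma0_iff_dvd.mpr ((dvd_mul_right _ _).trans h10),
    mem_upperCong.mpr ((dvd_mul_left _ _).trans h01)⟩

/-- `diag (1, l)`. -/
noncomputable def diagOne [NeZero l] : GL (Fin 2) ℚ :=
  Matrix.GeneralLinearGroup.mkOfDetNeZero !![1, 0; 0, (l : ℚ)] (by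
    rw [Matrix.det_fin_two_of]; simp [NeZero.ne l])

/-- `diag (l, 1)`. -/
noncomputable def diagTop [NeZero l] : GL (Fin 2) ℚ :=
  Matrix.GeneralLinearGroup.mkOfDetNeZero !![(l : ℚ), 0; 0, 1] (by
    rw [Matrix.det_fin_two_of]; simp [NeZero.ne l])

@[simp] theorem coe_diagOne [NeZero l] :
    ((diagOne l : GL (Fin 2) ℚ) : Matrix (Fin 2) (Fin 2) ℚ) = !![1, 0; 0, (l : ℚ)] := rfl

@[simp] theorem coe_diagTop [NeZero l] :
    ((diagTop l : GL (Fin 2) ℚ) : Matrix (Fin 2) (Fin 2) ℚ) = !![(l : ℚ), 0; 0, 1] := rfl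

theorem det_diagOne_pos [NeZero l] :
    0 < ((diagOne l : GL (Fin 2) ℚ) : Matrix (Fin 2) (Fin 2) ℚ).det := by
  rw [coe_diagOne, Matrix.det_fin_two_of]
  simp [Nat.pos_of_ne_zero (NeZero.ne l)]

theorem det_diagTop_pos [NeZero l] :
    0 < ((diagTop l : GL (Fin 2) ℚ) : Matrix (Fin 2) (Fin 2) ℚ).det := by
  rw [coe_diagTop, Matrix.det_fin_two_of]
  simp [Nat.pos_of_ne_zero (NeZero.ne l)]

theorem toGL_mul_cancel {α : GL (Fin 2) ℚ} {g h : SL(2, ℤ)}
    (e : toGL g * α = toGL h * α) : g = h :=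
  Matrix.SpecialLinearGroup.mapGL_injective (mul_right_cancel e)

theorem toGL_mul_compat {α : GL (Fin 2) ℚ} {g h k k' l' : SL(2, ℤ)}
    (e : α * toGL g = toGL k * α) (e' : α * toGL h = toGL k' * α)
    (e'' : α * toGL (g * h) = toGL l' * α) : l' = k * k' := by
  refine toGL_mul_cancel (α := α) ?_
  rw [← e'', map_mul, map_mul, ← mul_assoc, e, mul_assoc, e', ← mul_assoc]

theorem exists_upImage [NeZero l] (g : gammaUp N l) : ∃ k : Gamma0 (N * l),
    diagOne l * toGL (g : SL(2, ℤ)) = toGL (k : SL(2, ℤ)) * diagOne l := by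
  obtain ⟨t, ht⟩ := mem_upperCong.mp g.2.2
  obtain ⟨s, hs⟩ := mem_Gamma0_iff_dvd.mp g.2.1
  have hd := det_eq (g : SL(2, ℤ))
  refine ⟨⟨mkSL ((g : SL(2, ℤ)) 0 0) t (l * (g : SL(2, ℤ)) 1 0) ((g : SL(2, ℤ)) 1 1)
    (by linear_combination hd + (g : SL(2, ℤ)) 1 0 * ht), ?_⟩, ?_⟩
  · rw [mem_Gamma0_iff_dvd]
    exact ⟨s, by simp [hs]; ring⟩
  · have ht' : ((g : SL(2, ℤ)) 0 1 : ℚ) = (l : ℚ) * t := by exact_mod_cast ht
    ext i j
    fin_cases i <;> fin_cases j <;> simp [Matrix.mul_apply, Fin.sum_univ_two, ht', mul_comm]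

theorem exists_downImage [NeZero l] (g : Gamma0 (N * l)) : ∃ k : gammaUp N l,
    diagTop l * toGL (g : SL(2, ℤ)) = toGL (k : SL(2, ℤ)) * diagTop l := by
  obtain ⟨s, hs⟩ := mem_Gamma0_iff_dvd.mp g.2
  push_cast at hs
  have hd := det_eq (g : SL(2, ℤ))
  refine ⟨⟨mkSL ((g : SL(2, ℤ)) 0 0) (l * (g : SL(2, ℤ)) 0 1) (N * s) ((g : SL(2, ℤ)) 1 1)
    (by linear_combination hd + (g : SL(2, ℤ)) 0 1 * hs),
    mem_Gamma0_iff_dvd.mpr ⟨s, rfl⟩, mem_upperCong.mpr ⟨_, rfl⟩⟩, ?_⟩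
  · have hs' : ((g : SL(2, ℤ)) 1 0 : ℚ) = (N : ℚ) * l * s := by exact_mod_cast hs
    ext i j
    fin_cases i <;> fin_cases j <;> simp [Matrix.mul_apply, Fin.sum_univ_two, hs', mul_comm]
    ring

/-- Conjugation by `diag (1, l)`: `Γ₀(N) ∩ Γ⁰(l) → Γ₀(N l)`. -/
noncomputable def upHom [NeZero l] : gammaUp N l →* Gamma0 (N * l) :=
  MonoidHom.mk' (fun g => (exists_upImage N l g).choose) fun g h =>
    Subtype.ext (toGL_mul_compat ((exists_upImage N l g).choose_spec)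
      ((exists_upImage N l h).choose_spec) ((exists_upImage N l (g * h)).choose_spec))

theorem upHom_spec [NeZero l] (g : gammaUp N l) :
    diagOne l * toGL (g : SL(2, ℤ)) = toGL (upHom N l g : SL(2, ℤ)) * diagOne l :=
  (exists_upImage N l g).choose_spec

/-- Conjugation by `diag (l, 1)`: `Γ₀(N l) → Γ₀(N) ∩ Γ⁰(l)`. -/
noncomputable def downHom [NeZero l] : Gamma0 (N * l) →* gammaUp N l :=
  MonoidHom.mk' (fun g => (exists_downImage N l g).choose) fun g h =>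
    Subtype.ext (toGL_mul_compat ((exists_downImage N l g).choose_spec)
      ((exists_downImage N l h).choose_spec) ((exists_downImage N l (g * h)).choose_spec))

theorem downHom_spec [NeZero l] (g : Gamma0 (N * l)) :
    diagTop l * toGL (g : SL(2, ℤ)) = toGL (downHom N l g : SL(2, ℤ)) * diagTop l :=
  (exists_downImage N l g).choose_spec

theorem downHom_upHom [NeZero l] (g : gammaUp N l) : downHom N l (upHom N l g) = g := by
  refine Subtype.ext (toGL_mul_cancel (α := diagTop l * diagOne l) ?_)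
  have hs : ∀ k : SL(2, ℤ), toGL k * (diagTop l * diagOne l) = diagTop l * diagOne l * toGL k := by
    intro k
    ext i j
    fin_cases i <;> fin_cases j <;> simp [Matrix.mul_apply, Fin.sum_univ_two, mul_comm]
  rw [hs (g : SL(2, ℤ)), mul_assoc (diagTop l) (diagOne l), upHom_spec, ← mul_assoc,
    ← mul_assoc, downHom_spec]

/-- Representatives for `diag (1, l)` and `diag (l, 1)`. -/
theorem exists_bezoutRep (h : Nat.Coprime l N) :
    ∃ (a b : ℤ) (r u : Gamma0 N), a * l - b * N = 1 ∧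
      ((r : SL(2, ℤ)) : Matrix (Fin 2) (Fin 2) ℤ) = !![a * l, b; (N : ℤ), 1] ∧
      ((u : SL(2, ℤ)) : Matrix (Fin 2) (Fin 2) ℤ) = !![(l : ℤ), -b; -(N : ℤ), a] := by
  obtain ⟨a, c, hac⟩ : IsCoprime (l : ℤ) (N : ℤ) := Int.isCoprime_iff_gcd_eq_one.mpr (by simpa)
  refine ⟨a, -c, ⟨mkSL (a * l) (-c) N 1 (by linarith), ?_⟩,
    ⟨mkSL l (-(-c)) (-(N : ℤ)) a (by linarith), ?_⟩, by linarith, rfl, rfl⟩
  · rw [mem_Gamma0_iff_dvd]; simp
  · rw [mem_Gamma0_iff_dvd]; simp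

variable {N l}

/-- `Γ₀(N) ∩ Γ⁰(l)` is conjugate to `Γ₀(N l)` by the representative above. -/
theorem conj_mem_gammaUp_iff [Fact l.Prime] {a b : ℤ} (hab : a * l - b * N = 1) {r : Gamma0 N}
    (hr : ((r : SL(2, ℤ)) : Matrix (Fin 2) (Fin 2) ℤ) = !![a * l, b; (N : ℤ), 1])
    (g : SL(2, ℤ)) :
    (r : SL(2, ℤ)) * g * (r : SL(2, ℤ))⁻¹ ∈ gammaUp N l ↔ g ∈ Gamma0 (N * l) := by
  have hlp : Prime (l : ℤ) := Nat.prime_iff_prime_int.mp Fact.out
  have hb : ¬(l : ℤ) ∣ b := fun h => hlp.not_dvd_one (hab ▸ (dvd_mul_left _ a).sub (h.mul_right _))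
  have h01 : ((r : SL(2, ℤ)) * g * (r : SL(2, ℤ))⁻¹) 0 1 =
      l * (-b * (a * g 0 0) + a * (a * l * g 0 1) + a * (b * g 1 1)) - b * b * g 1 0 := by
    simp [Matrix.mul_apply, Fin.sum_univ_two, Matrix.SpecialLinearGroup.coe_inv,
      Matrix.adjugate_fin_two, hr, Matrix.vecMul, dotProduct]
    ring
  constructor
  · rintro ⟨h1, h2⟩
    have hg : g ∈ Gamma0 N := by
      have := (Gamma0 N).mul_mem ((Gamma0 N).mul_mem ((Gamma0 N).inv_mem r.2) h1) r.2
      simpa [mul_assoc] using this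
    rw [mem_Gamma0_iff_dvd] at hg ⊢
    push_cast
    change (l : ℤ) ∣ _ at h2
    rw [h01] at h2
    have h3 : (l : ℤ) ∣ b * b * g 1 0 := by
      have := (dvd_mul_right (l : ℤ)
        (-b * (a * g 0 0) + a * (a * l * g 0 1) + a * (b * g 1 1))).sub h2
      simpa using this
    have hcop : IsCoprime (N : ℤ) (l : ℤ) := ⟨-b, a, by linarith⟩
    refine hcop.mul_dvd hg ?_
    rcases hlp.dvd_or_dvd h3 with h | h
    · exact absurd ((hlp.dvd_or_dvd h).elim id id) hb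
    · exact h
  · intro hg
    refine ⟨(Gamma0 N).mul_mem ((Gamma0 N).mul_mem r.2 (Gamma0_mul_le N l hg))
      ((Gamma0 N).inv_mem r.2), ?_⟩
    change (l : ℤ) ∣ _
    rw [h01]
    rw [mem_Gamma0_iff_dvd] at hg
    push_cast at hg
    exact (dvd_mul_right _ _).sub (((dvd_mul_left _ _).trans hg).mul_left _)

/-- `Γ₀(N) ∩ Γ⁰(l)` has the index of `Γ₀(N l)`. -/
theorem index_gammaUp [Fact l.Prime] (hl : ¬l ∣ N) :
    (gammaUp N l).index = (Gamma0 (N * l)).index := by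
  obtain ⟨a, b, r, u, hab, hr, -⟩ :=
    exists_bezoutRep N l ((Fact.out : l.Prime).coprime_iff_not_dvd.mpr hl)
  rw [show Gamma0 (N * l) = (gammaUp N l).comap (MulAut.conj (r : SL(2, ℤ))).toMonoidHom from
    Subgroup.ext fun g => (conj_mem_gammaUp_iff hab hr g).symm]
  exact (Subgroup.index_comap_of_surjective _ (MulAut.conj (r : SL(2, ℤ))).surjective).symm

/-- The representatives of `(Γ₀(N) ∩ Γ⁰(l)) \ Γ₀(N)`. -/
def upRep (r : Gamma0 N) (i : HeckeIdx N l) : SL(2, ℤ) :=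
  i.1.elim (r : SL(2, ℤ)) fun x => mkSL 1 (x.val : ℤ) 0 1 (by ring)

theorem isReps_upRep [Fact l.Prime] (hl : ¬l ∣ N) {a b : ℤ} (hab : a * l - b * N = 1)
    {r : Gamma0 N}
    (hr : ((r : SL(2, ℤ)) : Matrix (Fin 2) (Fin 2) ℤ) = !![a * l, b; (N : ℤ), 1]) :
    IsReps (gammaUp N l) (Gamma0 N) (upRep (l := l) r) := by
  have hlp : Prime (l : ℤ) := Nat.prime_iff_prime_int.mp Fact.out
  have : NeZero l := ⟨(Fact.out : l.Prime).ne_zero⟩
  have hb : (b : ZMod l) ≠ 0 := fun h => hlp.not_dvd_one <|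
    hab ▸ (dvd_mul_left _ a).sub (((ZMod.intCast_zmod_eq_zero_iff_dvd _ _).mp h).mul_right _)
  have hmem : ∀ i, upRep (l := l) r i ∈ Gamma0 N := by
    rintro ⟨_ | x, hx⟩
    · exact r.2
    · rw [mem_Gamma0_iff_dvd]; simp [upRep]
  refine ⟨hmem, fun g hg => ?_⟩
  have key : ∀ i, g * (upRep (l := l) r i)⁻¹ ∈ gammaUp N l ↔
      ((g * (upRep (l := l) r i)⁻¹) 0 1 : ZMod l) = 0 := fun i => by
    rw [ZMod.intCast_zmod_eq_zero_iff_dvd]
    exact ⟨fun h => h.2, fun h => ⟨(Gamma0 N).mul_mem hg ((Gamma0 N).inv_mem (hmem i)), h⟩⟩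
  have e1 : ∀ (x : ZMod l) (hx : some x = none → ¬l ∣ N),
      ((g * (upRep (l := l) r ⟨some x, hx⟩)⁻¹) 0 1 : ZMod l) =
        (g 0 1 : ZMod l) - (g 0 0 : ZMod l) * x := by
    intro x hx
    simp [upRep, Matrix.mul_apply, Fin.sum_univ_two, Matrix.SpecialLinearGroup.coe_inv,
      Matrix.adjugate_fin_two, Matrix.vecMul, dotProduct]
    ring
  have e2 : ((g * (upRep (l := l) r ⟨none, fun _ => hl⟩)⁻¹) 0 1 : ZMod l) =
      -(g 0 0 : ZMod l) * b := by
    simp [upRep, Matrix.mul_apply, Fin.sum_univ_two, Matrix.SpecialLinearGroup.coe_inv,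
      Matrix.adjugate_fin_two, Matrix.vecMul, dotProduct, hr]
  have hdet : (g 0 0 : ZMod l) * (g 1 1 : ZMod l) - (g 0 1 : ZMod l) * (g 1 0 : ZMod l) = 1 := by
    exact_mod_cast congrArg (Int.cast : ℤ → ZMod l) (det_eq g)
  by_cases h00 : (g 0 0 : ZMod l) = 0
  · refine ⟨⟨none, fun _ => hl⟩, (key _).mpr (by rw [e2, h00]; simp), ?_⟩
    rintro ⟨_ | x, hx⟩ hm
    · rfl
    · exfalso
      have := (key _).mp hm
      rw [e1, h00, zero_mul, sub_zero] at this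
      rw [h00, this] at hdet
      simp at hdet
  · refine ⟨⟨some ((g 0 1 : ZMod l) / (g 0 0 : ZMod l)), by simp⟩,
      (key _).mpr (by rw [e1, mul_div_cancel₀ _ h00, sub_self]), ?_⟩
    rintro ⟨_ | x, hx⟩ hm
    · exfalso
      have := (key _).mp hm
      rw [e2, mul_eq_zero, neg_eq_zero] at this
      exact this.elim h00 hb
    · have := (key _).mp hm
      rw [e1, sub_eq_zero] at this
      simp [this, h00]

variable {R : Type*} [CommRing R]

/-- The real image of a rational matrix. -/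
noncomputable def toReal : GL (Fin 2) ℚ →* GL (Fin 2) ℝ :=
  Matrix.GeneralLinearGroup.map (algebraMap ℚ ℝ)

theorem toReal_toGL (γ : Gamma0 N) : toReal (toGL (γ : SL(2, ℤ))) = gamma0GL N γ :=
  Matrix.SpecialLinearGroup.map_mapGL (R := ℤ) (S := ℚ) (T := ℝ) _

/-- The Hecke operator as a transfer: the general witness computation. -/
theorem heckeHom_eq_cor {ℓ : Nat.Primes} [NeZero (ℓ : ℕ)] {H : Subgroup SL(2, ℤ)} [H.FiniteIndex]
    {A : Type*} [AddCommGroup A] [Module R A] {r : HeckeIdx N ℓ → SL(2, ℤ)}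
    (hr : IsReps H (Gamma0 N) r) {α : GL (Fin 2) ℚ} (j : H →* Gamma0 N)
    (hj : ∀ h : H, α * toGL (h : SL(2, ℤ)) = toGL (j h : SL(2, ℤ)) * α)
    (u : HeckeIdx N ℓ → Gamma0 N)
    (hu : ∀ i, heckeBeta N ℓ i = gamma0GL N (u i) * toReal (α * toGL (r i)))
    (φ : Additive (Gamma0 N) →+ A) :
    heckeHom N R A ℓ φ = cor H (Gamma0 N) A R (pullHom R A j φ) := by
  refine AddMonoidHom.ext fun γ => ?_
  obtain ⟨γ, rfl⟩ : ∃ g : Gamma0 N, Additive.ofMul g = γ := ⟨Additive.toMul γ, rfl⟩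
  obtain ⟨π, δ, e⟩ := exists_step hr γ.2
  have step : ∀ i, heckeBeta N ℓ i * gamma0GL N γ =
      gamma0GL N (u i * j (δ i) * (u (π i))⁻¹) * heckeBeta N ℓ (π i) := by
    intro i
    have k : toReal (α * toGL (r i)) * gamma0GL N γ =
        gamma0GL N (j (δ i)) * toReal (α * toGL (r (π i))) := by
      rw [← toReal_toGL γ, ← toReal_toGL (j (δ i)), ← map_mul toReal, ← map_mul toReal]
      congr 1
      rw [mul_assoc α, ← map_mul, e, map_mul, ← mul_assoc, hj, mul_assoc]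
    rw [hu i, hu (π i), mul_assoc, k, map_mul (gamma0GL N), map_mul (gamma0GL N), map_inv]
    group
  rw [heckeHom_eq_sum ℓ φ γ _ π step, cor_eq_sum hr _ γ e]
  simp only [ofMul_mul, map_add, ofMul_inv, map_neg, Finset.sum_add_distrib,
    Finset.sum_neg_distrib]
  rw [Equiv.sum_comp π (fun i => φ (Additive.ofMul (u i)))]
  simp [pullHom]

variable [NeZero N]

/-- `T_ℓ` as restriction to `Γ₀(N ℓ)`, conjugation, and transfer. -/
theorem heckeParEll_eq_up (ℓ : Nat.Primes) [NeZero (ℓ : ℕ)] (hl : ¬(ℓ : ℕ) ∣ N)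
    (φ : parEllHoms (Gamma0 N) R R) :
    heckeParEll N R R ℓ φ = corPar (Γ := Gamma0 N) R R
      (conjPar R R (diagOne ℓ) (upHom N ℓ) (upHom_spec N ℓ)
        (resPar R R (Gamma0_mul_le N ℓ) φ)) := by
  haveI : Fact (ℓ : ℕ).Prime := ⟨ℓ.2⟩
  obtain ⟨a, b, r, u, hab, hr, hu⟩ := exists_bezoutRep N ℓ (ℓ.2.coprime_iff_not_dvd.mpr hl)
  refine Subtype.ext ?_
  rw [coe_heckeParEll_apply, coe_corPar]
  refine heckeHom_eq_cor (isReps_upRep hl hab hr)
    ((Subgroup.inclusion (Gamma0_mul_le N ℓ)).comp (upHom N ℓ)) (fun h => upHom_spec N ℓ h)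
    (fun i => i.1.elim u fun _ => 1) ?_ (φ : Additive (Gamma0 N) →+ R)
  rintro ⟨_ | x, hx⟩
  · have hp : (ℓ : ℕ) ≠ 0 := NeZero.ne _
    have habR : (a : ℝ) * (ℓ : ℕ) - b * N = 1 := by exact_mod_cast hab
    ext i j
    fin_cases i <;> fin_cases j <;>
      simp [upRep, heckeBeta, toReal, gamma0GL, Matrix.mul_apply, Fin.sum_univ_two, hr, hu, hp,
        Matrix.GeneralLinearGroup.map] <;>
      first | linear_combination (ℓ : ℝ) * habR | linear_combination habR | linear_combination -habR | linear_combination -(ℓ : ℝ) * habR | ring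
  · have hp : (ℓ : ℕ) ≠ 0 := NeZero.ne _
    ext i j
    fin_cases i <;> fin_cases j <;>
      simp [upRep, heckeBeta, toReal, Matrix.mul_apply, Fin.sum_univ_two, hp,
        Matrix.GeneralLinearGroup.map, -ZMod.natCast_val]

/-- `T_ℓ` as restriction to `Γ₀(N) ∩ Γ⁰(ℓ)`, conjugation, and transfer. -/
theorem heckeParEll_eq_down (ℓ : Nat.Primes) [NeZero (ℓ : ℕ)] (hl : ¬(ℓ : ℕ) ∣ N)
    (φ : parEllHoms (Gamma0 N) R R) :
    heckeParEll N R R ℓ φ = corPar (Γ := Gamma0 N) R R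
      (conjPar R R (diagTop ℓ) (downHom N ℓ) (downHom_spec N ℓ)
        (resPar R R (gammaUp_le N ℓ) φ)) := by
  haveI : Fact (ℓ : ℕ).Prime := ⟨ℓ.2⟩
  obtain ⟨a, b, r, u, hab, hr, hu⟩ := exists_bezoutRep N ℓ (ℓ.2.coprime_iff_not_dvd.mpr hl)
  have h1 := isReps_upRep hl hab hr
  -- the representatives of `Γ₀(N ℓ) \ Γ₀(N)`
  have h2 : IsReps (Gamma0 (N * ℓ)) (Gamma0 N)
      fun i : HeckeIdx N ℓ => (r : SL(2, ℤ))⁻¹ * upRep (l := (ℓ : ℕ)) r i := by
    refine ⟨fun i => (Gamma0 N).mul_mem ((Gamma0 N).inv_mem r.2) (h1.1 i), fun g hg => ?_⟩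
    have e : ∀ i, g * ((r : SL(2, ℤ))⁻¹ * upRep r i)⁻¹ ∈ Gamma0 (N * ℓ) ↔
        (r : SL(2, ℤ)) * g * (upRep (l := (ℓ : ℕ)) r i)⁻¹ ∈ gammaUp N ℓ := fun i => by
      rw [← conj_mem_gammaUp_iff hab hr]
      simp [mul_assoc]
    simp only [e]
    exact h1.2 _ ((Gamma0 N).mul_mem r.2 hg)
  have hp : (ℓ : ℕ) ≠ 0 := NeZero.ne _
  have habR : (a : ℝ) * (ℓ : ℕ) - b * N = 1 := by exact_mod_cast hab
  have habQ : (a : ℚ) * (ℓ : ℕ) - b * N = 1 := by exact_mod_cast hab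
  -- `diag (ℓ, 1) = u diag (1, ℓ) r`
  have htop : diagTop (ℓ : ℕ) = toGL (u : SL(2, ℤ)) * diagOne (ℓ : ℕ) * toGL (r : SL(2, ℤ)) := by
    ext i j
    fin_cases i <;> fin_cases j <;>
      simp [Matrix.mul_apply, Fin.sum_univ_two, hr, hu] <;>
      first | linear_combination (ℓ : ℚ) * habQ | linear_combination habQ | linear_combination -habQ | linear_combination -(ℓ : ℚ) * habQ | ring
  refine Subtype.ext ?_
  rw [coe_heckeParEll_apply, coe_corPar]
  refine heckeHom_eq_cor h2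
    ((Subgroup.inclusion (gammaUp_le N ℓ)).comp (downHom N ℓ)) (fun h => downHom_spec N ℓ h)
    (fun i => (i.1.elim u fun _ => 1) * u⁻¹) ?_ (φ : Additive (Gamma0 N) →+ R)
  intro i
  have hb : heckeBeta N ℓ i = gamma0GL N (i.1.elim u fun _ => 1) *
      toReal (diagOne (ℓ : ℕ) * toGL (upRep r i)) := by
    rcases i with ⟨_ | x, hx⟩
    · ext i j
      fin_cases i <;> fin_cases j <;>
        simp [upRep, heckeBeta, toReal, gamma0GL, Matrix.mul_apply, Fin.sum_univ_two, hr, hu, hp,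
          Matrix.GeneralLinearGroup.map] <;>
        first | linear_combination (ℓ : ℝ) * habR | linear_combination habR | linear_combination -habR | linear_combination -(ℓ : ℝ) * habR | ring
    · ext i j
      fin_cases i <;> fin_cases j <;>
        simp [upRep, heckeBeta, toReal, Matrix.mul_apply, Fin.sum_univ_two, hp,
          Matrix.GeneralLinearGroup.map, -ZMod.natCast_val]
  rw [hb, htop, map_mul (gamma0GL N), map_inv, ← toReal_toGL u, mul_assoc, ← map_inv, ← map_mul]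
  congr 2
  simp only [map_mul, map_inv]
  group

/-- **`T_ℓ` is self-adjoint** for `ℓ ∤ N`. -/
theorem pairing_heckeParEll (ℓ : Nat.Primes) (hl : ¬(ℓ : ℕ) ∣ N)
    (φ ψ : parEllHoms (Gamma0 N) R R) :
    pairing R (neg_one_mem_Gamma0 N) (heckeParEll N R R ℓ φ) ψ =
      pairing R (neg_one_mem_Gamma0 N) φ (heckeParEll N R R ℓ ψ) := by
  haveI : Fact (ℓ : ℕ).Prime := ⟨ℓ.2⟩
  haveI : NeZero (ℓ : ℕ) := ⟨ℓ.2.ne_zero⟩
  haveI : NeZero (N * (ℓ : ℕ)) := ⟨mul_ne_zero (NeZero.ne N) (NeZero.ne _)⟩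
  have hid : conjPar R R (diagOne (ℓ : ℕ)) (upHom N ℓ) (upHom_spec N ℓ)
      (conjPar R R (diagTop (ℓ : ℕ)) (downHom N ℓ) (downHom_spec N ℓ)
        (resPar R R (gammaUp_le N ℓ) ψ)) = resPar R R (gammaUp_le N ℓ) ψ := by
    refine Subtype.ext (AddMonoidHom.ext fun g => ?_)
    show (resPar R R (gammaUp_le N ℓ) ψ : Additive (gammaUp N ℓ) →+ R)
      (Additive.ofMul (downHom N ℓ (upHom N ℓ (Additive.toMul g)))) = _
    rw [downHom_upHom]
    rfl
  rw [heckeParEll_eq_up ℓ hl φ, heckeParEll_eq_down ℓ hl ψ,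
    ← pairing_res_right (neg_one_mem_gammaUp N ℓ) (neg_one_mem_Gamma0 N) (gammaUp_le N ℓ)]
  conv_lhs => rw [← hid]
  rw [pairing_conj (neg_one_mem_gammaUp N ℓ) (neg_one_mem_Gamma0 _) (det_diagOne_pos (ℓ : ℕ))
      (upHom N ℓ) (upHom_spec N ℓ) (index_gammaUp hl),
    pairing_res (neg_one_mem_Gamma0 _) (neg_one_mem_Gamma0 N) (Gamma0_mul_le N ℓ)]

end Fermat.Agent.Duality
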